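/-
Program C (S55), package C3, leaf L6b (`LeafH2Le`), generic part (helper40).

* `natCard_H2_dvd_card`: the unconditional form of C1-d in degree 2 (helper55's dévissage fed
  with helper80's Sylow corollary);
* `natCard_H2_of_generator`: the cardinality of `H²` of a finite cyclic group, for a group given
  with a generator (no `CommGroup` instance needed);
* `natCard_quotientToInvariants_congr`: transport of the cohomology of `A^N` along an isomorphism
  of groups.
-/
import Mathlib
import Fermat.Agent.S55.H55.InfRes2Full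
import Fermat.Agent.S55.H80.ResIndexCor
import Fermat.Agent.S55.H84.HerbrandCyclic

set_option autoImplicit false

open CategoryTheory groupCohomology Rep

namespace Fermat.Agent.S55.H40

/-- **C1-d, degree 2.**  If `H¹(H, A) = 0` for all subgroups `H` of the finite group `G`, and
`#H²(H ⧸ N, A^N)` divides `#(H ⧸ N)` for all layers `N ⊴ H ≤ G` of prime order, then `#H²(G, A)`
divides `#G`. -/
theorem natCard_H2_dvd_card {k G : Type} [CommRing k] [Group G] [Finite G] (A : Rep k G)
    (h1 : ∀ H : Subgroup G, Limits.IsZero (groupCohomology (res H.subtype A) 1))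
    (h2 : ∀ (H : Subgroup G) (N : Subgroup H) [N.Normal], (Nat.card (H ⧸ N)).Prime →
      Nat.card (groupCohomology ((res H.subtype A).quotientToInvariants N) 2) ∣
        Nat.card (H ⧸ N)) :
    Nat.card (groupCohomology A 2) ∣ Nat.card G :=
  H55.natCard_H2_dvd_card_of_prime_layers_of' A
    (H80.natCard_dvd_card_of_forall_prime A 2 (Or.inr rfl)) h1 h2

/-- The cardinality of `H²` of a finite cyclic group with generator `g`:
`#H²(G, A) = [ker (ρ g - 1) : im N]`, for any additive maps `sb`, `nm` computing `ρ g - 1` and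
the norm. -/
theorem natCard_H2_of_generator {k G : Type} [CommRing k] [Group G] [Fintype G] (A : Rep k G)
    (g : G) (hg : ∀ x, x ∈ Subgroup.zpowers g) (sb nm : A.V →+ A.V)
    (hsb : ∀ a, sb a = A.ρ g a - a) (hnm : ∀ a, nm a = ∑ h : G, A.ρ h a) :
    Nat.card (groupCohomology A 2) = nm.range.relIndex sb.ker := by
  let _ : CommGroup G :=
    { (inferInstance : Group G) with
      mul_comm := fun a b => by
        obtain ⟨i, rfl⟩ := Subgroup.mem_zpowers_iff.mp (hg a)
        obtain ⟨j, rfl⟩ := Subgroup.mem_zpowers_iff.mp (hg b)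
        exact zpow_mul_comm g i j }
  have h := H84.natCard_groupCohomology_even A g hg 2 (by decide)
  rw [h, H84.hIdx]
  have e1 : H84.subHom A g = sb := by
    ext a
    rw [H84.subHom_apply, hsb]
  have e2 : H84.normHom A = nm := by
    ext a
    rw [H84.normHom_apply, hnm]
  rw [e1, e2]

/-- Transport of `Hⁿ(G ⧸ N, A^N)` along an isomorphism of groups. -/
theorem natCard_quotientToInvariants_congr {k G₁ G₂ : Type} [CommRing k] [Group G₁] [Group G₂]
    (e : G₁ ≃* G₂) (A₁ : Rep k G₁) (A₂ : Rep k G₂) (φ : A₁.V ≃ₗ[k] A₂.V)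
    (hφ : ∀ g x, φ (A₁.ρ g x) = A₂.ρ (e g) (φ x))
    (N₁ : Subgroup G₁) [N₁.Normal] (N₂ : Subgroup G₂) [N₂.Normal]
    (hN : N₁.map (e : G₁ →* G₂) = N₂) (n : ℕ) :
    Nat.card (groupCohomology (A₁.quotientToInvariants N₁) n) =
      Nat.card (groupCohomology (A₂.quotientToInvariants N₂) n) := by
  have hmap : (Representation.invariants (A₁.ρ.comp N₁.subtype)).map (φ : A₁.V →ₗ[k] A₂.V) =
      Representation.invariants (A₂.ρ.comp N₂.subtype) := by
    ext y
    constructor
    · rintro ⟨x, hx, rfl⟩ s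
      obtain ⟨s, hs⟩ := s
      rw [← hN] at hs
      obtain ⟨t, ht, rfl⟩ := hs
      have h1 : A₁.ρ t x = x := hx ⟨t, ht⟩
      show A₂.ρ (e t) (φ x) = φ x
      rw [← hφ, h1]
    · intro hy
      refine ⟨φ.symm y, fun s => ?_, by simp⟩
      obtain ⟨s, hs⟩ := s
      have hes : e s ∈ N₂ := hN ▸ ⟨s, hs, rfl⟩
      have h1 : A₂.ρ (e s) y = y := hy ⟨e s, hes⟩
      show A₁.ρ s (φ.symm y) = φ.symm y
      apply φ.injective
      rw [hφ, LinearEquiv.apply_symm_apply, h1]
  let φ' : (A₁.quotientToInvariants N₁).V ≃ₗ[k] (A₂.quotientToInvariants N₂).V :=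
    (φ.submoduleMap _).trans (LinearEquiv.ofEq _ _ hmap)
  let e' : G₁ ⧸ N₁ ≃* G₂ ⧸ N₂ := QuotientGroup.congr N₁ N₂ e hN
  refine Nat.card_congr (mapIso e' φ' (fun g => ?_) n).toLinearEquiv.toEquiv
  induction g using QuotientGroup.induction_on with
  | H g =>
    ext x
    exact hφ g x.1

end Fermat.Agent.S55.H40
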