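/-
Program C (S55), package C3, leaf L6b (`LeafH2Le`) (helper40):
`#H²(Gal(L/F), Lˣ) ≤ [L : F]` for every finite Galois extension of embedded local fields,
from the norm index of cyclic extensions (`LeafNormIndex`), Hilbert 90 and the abstract
dévissage C1-d.
-/
import Fermat.Agent.S55.H40.H2LeCore
import Fermat.Agent.S55.H66.LocalSpec

set_option autoImplicit false

open CategoryTheory groupCohomology Rep IntermediateField

namespace Fermat.Agent.S55.H40

section Layer

variable {F L : Type} [Field F] [Field L] [Algebra F L]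

/-- The element of `L` underlying an `N`-invariant element of `Lˣ`. -/
def uval (N : Subgroup (L ≃ₐ[F] L)) [N.Normal]
    (x : ((Rep.ofAlgebraAutOnUnits F L).quotientToInvariants N).V) : L :=
  ((Additive.toMul (x.1 : Additive Lˣ) : Lˣ) : L)

variable (N : Subgroup (L ≃ₐ[F] L)) [N.Normal]

theorem uval_ρ_mk (g : L ≃ₐ[F] L)
    (x : ((Rep.ofAlgebraAutOnUnits F L).quotientToInvariants N).V) :
    uval N (((Rep.ofAlgebraAutOnUnits F L).quotientToInvariants N).ρ (QuotientGroup.mk g) x) =
      g (uval N x) := rfl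

theorem uval_ne_zero (x : ((Rep.ofAlgebraAutOnUnits F L).quotientToInvariants N).V) :
    uval N x ≠ 0 := Units.ne_zero _

theorem uval_fixed (x : ((Rep.ofAlgebraAutOnUnits F L).quotientToInvariants N).V)
    (s : L ≃ₐ[F] L) (hs : s ∈ N) : s (uval N x) = uval N x := by
  have := x.2 ⟨s, hs⟩
  exact congrArg (fun u : Additive Lˣ => ((Additive.toMul u : Lˣ) : L)) this

theorem uval_mem (x : ((Rep.ofAlgebraAutOnUnits F L).quotientToInvariants N).V) :
    uval N x ∈ fixedField N := by
  rw [mem_fixedField_iff]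
  exact fun s hs => uval_fixed N x s hs

theorem uval_injective : Function.Injective (uval (F := F) (L := L) N) := by
  intro x y h
  apply Subtype.ext
  have h' : (Additive.toMul (x.1 : Additive Lˣ) : Lˣ) = Additive.toMul (y.1 : Additive Lˣ) :=
    Units.ext h
  exact Additive.toMul.injective h'

theorem uval_zero : uval (F := F) (L := L) N 0 = 1 := rfl

theorem uval_add (x y : ((Rep.ofAlgebraAutOnUnits F L).quotientToInvariants N).V) :
    uval N (x + y) = uval N x * uval N y := rfl

theorem uval_sum {ι : Type} (s : Finset ι)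
    (f : ι → ((Rep.ofAlgebraAutOnUnits F L).quotientToInvariants N).V) :
    uval N (∑ i ∈ s, f i) = ∏ i ∈ s, uval N (f i) := by
  classical
  induction s using Finset.induction_on with
  | empty => rw [Finset.sum_empty, Finset.prod_empty, uval_zero]
  | insert a s ha ih => rw [Finset.sum_insert ha, Finset.prod_insert ha, uval_add, ih]

/-- The invariant element attached to a nonzero element of the fixed field. -/
def mkInv (y : L) (hy : y ≠ 0) (hyN : ∀ s ∈ N, s y = y) :
    ((Rep.ofAlgebraAutOnUnits F L).quotientToInvariants N).V :=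
  ⟨Additive.ofMul (Units.mk0 y hy), fun s => by
    obtain ⟨s, hs⟩ := s
    show Additive.ofMul (Units.map (s : L →* L) (Units.mk0 y hy)) = Additive.ofMul (Units.mk0 y hy)
    congr 1
    ext
    exact hyN s hs⟩

theorem uval_mkInv (y : L) (hy : y ≠ 0) (hyN : ∀ s ∈ N, s y = y) :
    uval N (mkInv N y hy hyN) = y := rfl

end Layer

section LayerMain

variable {F L : Type} [Field F] [Field L] [Algebra F L] [FiniteDimensional F L] [IsGalois F L]
variable (N : Subgroup (L ≃ₐ[F] L)) [N.Normal]

/-- The norm of `(Lˣ)^N` over `Gal(L/F) ⧸ N` is the field norm of the fixed field of `N`. -/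
theorem uval_norm [Fintype ((L ≃ₐ[F] L) ⧸ N)]
    (x : ((Rep.ofAlgebraAutOnUnits F L).quotientToInvariants N).V) (y : fixedField N)
    (hy : (y : L) = uval N x) :
    uval N (∑ d : (L ≃ₐ[F] L) ⧸ N,
        ((Rep.ofAlgebraAutOnUnits F L).quotientToInvariants N).ρ d x) =
      algebraMap F L (Algebra.norm F y) := by
  rw [uval_sum]
  have h1 : algebraMap F L (Algebra.norm F y) =
      algebraMap (fixedField N) L (algebraMap F (fixedField N) (Algebra.norm F y)) := rfl
  rw [h1, Algebra.norm_eq_prod_automorphisms, map_prod,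
    ← (IsGalois.normalAutEquivQuotient N).toEquiv.prod_comp]
  refine Finset.prod_congr rfl fun d _ => ?_
  induction d using QuotientGroup.induction_on with
  | H g =>
    rw [uval_ρ_mk, ← hy]
    exact (AlgEquiv.restrictNormal_commutes g (fixedField N) y).symm

/-- **Layer formula.**  For `N ⊴ Gal(L/F)` with cyclic quotient,
`#H²(Gal(L/F) ⧸ N, (Lˣ)^N) = (Fˣ : N_{K'/F} K'ˣ)`, where `K'` is the fixed field of `N`. -/
theorem natCard_H2_layer_eq (hcyc : IsCyclic ((L ≃ₐ[F] L) ⧸ N)) :
    Nat.card (groupCohomology ((Rep.ofAlgebraAutOnUnits F L).quotientToInvariants N) 2) =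
      (Units.map (Algebra.norm F : fixedField N →* F)).range.index := by
  classical
  let _ : Fintype ((L ≃ₐ[F] L) ⧸ N) := Fintype.ofFinite _
  obtain ⟨c, hc⟩ := hcyc.exists_generator
  let B := (Rep.ofAlgebraAutOnUnits F L).quotientToInvariants N
  let sb : B.V →+ B.V := ((B.ρ c : B.V →ₗ[ℤ] B.V) - LinearMap.id).toAddMonoidHom
  let nm : B.V →+ B.V := (∑ h : (L ≃ₐ[F] L) ⧸ N, (B.ρ h : B.V →ₗ[ℤ] B.V)).toAddMonoidHom
  have hsb : ∀ a, sb a = B.ρ c a - a := fun a => rfl
  have hnm : ∀ a, nm a = ∑ h : (L ≃ₐ[F] L) ⧸ N, B.ρ h a := fun a => by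
    show (∑ h : (L ≃ₐ[F] L) ⧸ N, (B.ρ h : B.V →ₗ[ℤ] B.V)) a = _
    rw [LinearMap.sum_apply]
  rw [natCard_H2_of_generator B c hc sb nm hsb hnm]
  -- the inclusion of `Fˣ`
  have hfix : ∀ (u : Fˣ) (s : L ≃ₐ[F] L), s ∈ N →
      s (algebraMap F L (u : F)) = algebraMap F L (u : F) := fun u s _ => s.commutes _
  have hne : ∀ u : Fˣ, algebraMap F L (u : F) ≠ 0 := fun u =>
    (map_ne_zero (algebraMap F L)).mpr u.ne_zero
  let ψ : Additive Fˣ →+ B.V := AddMonoidHom.mk'
    (fun u => mkInv N (algebraMap F L ((Additive.toMul u : Fˣ) : F)) (hne _) (hfix _))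
    (fun a b => uval_injective N (by
      rw [uval_add, uval_mkInv, uval_mkInv, uval_mkInv, toMul_add, Units.val_mul, map_mul]))
  have hψ : ∀ u : Additive Fˣ, uval N (ψ u) = algebraMap F L ((Additive.toMul u : Fˣ) : F) :=
    fun u => rfl
  have hψinj : Function.Injective ψ := by
    intro a b hab
    have h1 := congrArg (uval N) hab
    rw [hψ, hψ] at h1
    exact Additive.toMul.injective (Units.ext ((algebraMap F L).injective h1))
  have hker : sb.ker = (⊤ : AddSubgroup (Additive Fˣ)).map ψ := by
    ext x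
    rw [AddMonoidHom.mem_ker, hsb, sub_eq_zero]
    constructor
    · intro hx
      -- `x` is fixed by the whole quotient, hence by the Galois group
      have hall : ∀ d : (L ≃ₐ[F] L) ⧸ N, B.ρ d x = x := by
        intro d
        obtain ⟨i, rfl⟩ := Subgroup.mem_zpowers_iff.mp (hc d)
        have hinv : B.ρ c⁻¹ x = x := by
          conv_lhs => rw [← hx]
          rw [← Module.End.mul_apply, ← map_mul, inv_mul_cancel, map_one]
          rfl
        induction i using Int.induction_on with
        | zero => rw [zpow_zero, map_one]; rfl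
        | succ i ih => rw [zpow_add_one, map_mul, Module.End.mul_apply, hx, ih]
        | pred i ih => rw [zpow_sub_one, map_mul, Module.End.mul_apply, hinv, ih]
      have hG : ∀ g : L ≃ₐ[F] L, g (uval N x) = uval N x := fun g => by
        rw [← uval_ρ_mk, hall]
      obtain ⟨a, ha⟩ := (IsGalois.mem_range_algebraMap_iff_fixed (uval N x)).mpr hG
      have ha0 : a ≠ 0 := by
        rintro rfl
        rw [map_zero] at ha
        exact uval_ne_zero N x ha.symm
      refine ⟨Additive.ofMul (Units.mk0 a ha0), trivial, uval_injective N ?_⟩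
      rw [hψ]
      exact ha
    · rintro ⟨u, -, rfl⟩
      induction c using QuotientGroup.induction_on with
      | H g =>
        apply uval_injective N
        rw [uval_ρ_mk, hψ, g.commutes]
  have hrange : nm.range =
      (Subgroup.toAddSubgroup (Units.map (Algebra.norm F : fixedField N →* F)).range).map ψ := by
    ext x
    constructor
    · rintro ⟨b, rfl⟩
      have hb0 : (⟨uval N b, uval_mem N b⟩ : fixedField N) ≠ 0 := fun h =>
        uval_ne_zero N b (congrArg Subtype.val h)
      refine ⟨Additive.ofMul (Units.map (Algebra.norm F : fixedField N →* F) (Units.mk0 _ hb0)),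
        ⟨_, rfl⟩, uval_injective N ?_⟩
      rw [hψ, hnm, uval_norm N b ⟨uval N b, uval_mem N b⟩ rfl]
      rfl
    · rintro ⟨u, hu, rfl⟩
      obtain ⟨y, hy⟩ : ∃ y : (fixedField N)ˣ,
          Units.map (Algebra.norm F : fixedField N →* F) y = Additive.toMul u := hu
      have hy0 : ((y : fixedField N) : L) ≠ 0 := fun h => y.ne_zero (Subtype.ext h)
      refine ⟨mkInv N ((y : fixedField N) : L) hy0
        (fun s hs => (mem_fixedField_iff _ _).mp (y : fixedField N).2 s hs), uval_injective N ?_⟩
      rw [hψ, ← hy, hnm, uval_norm N _ (y : fixedField N) (uval_mkInv N _ _ _).symm]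
      rfl
  rw [hker, hrange, AddSubgroup.relIndex_map_map_of_injective _ _ hψinj,
    AddSubgroup.relIndex_top_right, Subgroup.index_toAddSubgroup]

end LayerMain

section Local

variable (q : ℕ) [Fact q.Prime]

/-- **The layers of prime order.**  For `L/F` finite Galois over an embedded local field `F`
and `N ⊴ Gal(L/F)` of prime index, `#H²(Gal(L/F) ⧸ N, (Lˣ)^N)` divides the index (it is equal to
it), by the norm index of the cyclic extension `L^N/F`. -/
theorem natCard_H2_layer_dvd (hNI : H66.LeafNormIndex q)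
    (F : Type) [Field F] [Algebra ℚ_[q] F] [Algebra F (PadicAlgCl q)]
    [IsScalarTower ℚ_[q] F (PadicAlgCl q)] [FiniteDimensional ℚ_[q] F]
    (L : Type) [Field L] [Algebra F L] [FiniteDimensional F L] [IsGalois F L]
    (ι : L →ₐ[F] PadicAlgCl q)
    (N : Subgroup (L ≃ₐ[F] L)) [N.Normal] (hp : (Nat.card ((L ≃ₐ[F] L) ⧸ N)).Prime) :
    Nat.card (groupCohomology ((Rep.ofAlgebraAutOnUnits F L).quotientToInvariants N) 2) ∣
      Nat.card ((L ≃ₐ[F] L) ⧸ N) := by
  have : Fact (Nat.card ((L ≃ₐ[F] L) ⧸ N)).Prime := ⟨hp⟩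
  have hcyc : IsCyclic ((L ≃ₐ[F] L) ⧸ N) := isCyclic_of_prime_card rfl
  rw [natCard_H2_layer_eq N hcyc]
  -- transport to the image of the fixed field in `Ω`
  let K'' : IntermediateField F (PadicAlgCl q) := (fixedField N).map ι
  let ε : fixedField N ≃ₐ[F] K'' := (fixedField N).equivMap ι
  have : FiniteDimensional F K'' := ε.toLinearEquiv.finiteDimensional
  have : IsGalois F K'' := IsGalois.of_algEquiv ε
  let e : (L ≃ₐ[F] L) ⧸ N ≃* (K'' ≃ₐ[F] K'') :=
    (IsGalois.normalAutEquivQuotient N).trans (AlgEquiv.autCongr ε)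
  have hcyc' : IsCyclic (K'' ≃ₐ[F] K'') := isCyclic_of_surjective e e.surjective
  have h := hNI F K'' hcyc'
  have hidx : (Units.map (Algebra.norm F : fixedField N →* F)).range =
      (Units.map (Algebra.norm F : K'' →* F)).range := by
    ext u
    constructor
    · rintro ⟨y, rfl⟩
      exact ⟨Units.map (ε : fixedField N →* K'') y,
        Units.ext (Algebra.norm_eq_of_algEquiv ε (y : fixedField N))⟩
    · rintro ⟨y, rfl⟩
      exact ⟨Units.map (ε.symm : K'' →* fixedField N) y,
        Units.ext (Algebra.norm_eq_of_algEquiv ε.symm (y : K''))⟩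
  have hfr : Module.finrank F K'' = Nat.card ((L ≃ₐ[F] L) ⧸ N) := by
    rw [← IsGalois.card_aut_eq_finrank F K'']
    exact (Nat.card_congr e.toEquiv).symm
  rw [hidx, h, hfr]

/-- `#H²(Gal(L/F), Lˣ)` divides `[L : F]` for `L/F` finite Galois over an embedded local
field (with `L` any field mapping to `Ω`). -/
theorem natCard_H2_dvd (hNI : H66.LeafNormIndex q)
    (F : Type) [Field F] [Algebra ℚ_[q] F] [Algebra F (PadicAlgCl q)]
    [IsScalarTower ℚ_[q] F (PadicAlgCl q)] [FiniteDimensional ℚ_[q] F]
    (L : Type) [Field L] [Algebra F L] [Algebra ℚ_[q] L] [IsScalarTower ℚ_[q] F L]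
    [FiniteDimensional F L] [IsGalois F L] (ι : L →ₐ[F] PadicAlgCl q) :
    Nat.card (groupCohomology (Rep.ofAlgebraAutOnUnits F L) 2) ∣ Nat.card (L ≃ₐ[F] L) := by
  refine natCard_H2_dvd_card _ (fun H => ?_) (fun H N _ hp => ?_)
  · -- Hilbert 90 over the fixed field of `H`
    let e : H ≃* (L ≃ₐ[fixedField H] L) := subgroupEquivAlgEquiv H
    have iso : groupCohomology (res H.subtype (Rep.ofAlgebraAutOnUnits F L)) 1 ≅
        groupCohomology (Rep.ofAlgebraAutOnUnits (fixedField H) L) 1 :=
      mapIso e (LinearEquiv.refl ℤ (Additive Lˣ)) (fun g => rfl) 1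
    have hz : Limits.IsZero (groupCohomology (Rep.ofAlgebraAutOnUnits (fixedField H) L) 1) :=
      ModuleCat.isZero_of_subsingleton _
    exact hz.of_iso iso
  · -- the layers: transport to the Galois group of `L` over the fixed field of `H`
    let e : H ≃* (L ≃ₐ[fixedField H] L) := subgroupEquivAlgEquiv H
    let N₂ : Subgroup (L ≃ₐ[fixedField H] L) := N.map (e : H →* (L ≃ₐ[fixedField H] L))
    have : N₂.Normal := Subgroup.Normal.map inferInstance _ e.surjective
    have h1 : Nat.card (groupCohomology
        ((res H.subtype (Rep.ofAlgebraAutOnUnits F L)).quotientToInvariants N) 2) =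
        Nat.card (groupCohomology
          ((Rep.ofAlgebraAutOnUnits (fixedField H) L).quotientToInvariants N₂) 2) :=
      natCard_quotientToInvariants_congr e (res H.subtype (Rep.ofAlgebraAutOnUnits F L))
        (Rep.ofAlgebraAutOnUnits (fixedField H) L) (LinearEquiv.refl ℤ (Additive Lˣ))
        (fun g x => rfl) N N₂ rfl 2
    have h2 : Nat.card (H ⧸ N) = Nat.card ((L ≃ₐ[fixedField H] L) ⧸ N₂) :=
      Nat.card_congr (QuotientGroup.congr N N₂ e rfl).toEquiv
    rw [h1, h2]
    rw [h2] at hp
    -- the fixed field of `H` as an embedded local field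
    let : Algebra (fixedField H) (PadicAlgCl q) :=
      (ι.toRingHom.comp (algebraMap (fixedField H) L)).toAlgebra
    have : IsScalarTower ℚ_[q] (fixedField H) (PadicAlgCl q) :=
      IsScalarTower.of_algebraMap_eq (fun x => by
        show algebraMap ℚ_[q] (PadicAlgCl q) x =
          ι (algebraMap (fixedField H) L (algebraMap ℚ_[q] (fixedField H) x))
        have h0 : algebraMap (fixedField H) L (algebraMap ℚ_[q] (fixedField H) x) =
            algebraMap ℚ_[q] L x := rfl
        rw [h0, IsScalarTower.algebraMap_apply ℚ_[q] F L, ι.commutes,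
          ← IsScalarTower.algebraMap_apply ℚ_[q] F (PadicAlgCl q)])
    have : FiniteDimensional ℚ_[q] (fixedField H) := FiniteDimensional.trans ℚ_[q] F _
    let ιK : L →ₐ[fixedField H] PadicAlgCl q := { ι.toRingHom with commutes' := fun _ => rfl }
    exact natCard_H2_layer_dvd q hNI (fixedField H) L ιK N₂ hp

/-- **C3 leaf L6b.**  `#H²(Gal(L/F), Lˣ) ≤ [L : F]` for every finite Galois extension of embedded
local fields, from the norm index of cyclic extensions. -/
theorem leafH2Le (hNI : H66.LeafNormIndex q) : H66.LeafH2Le q := by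
  intro F _ _ _ _ _ L _ _
  have key := natCard_H2_dvd q hNI F L L.val
  rw [IsGalois.card_aut_eq_finrank] at key
  have hpos : 0 < Module.finrank F L := Module.finrank_pos
  constructor
  · refine Nat.finite_of_card_ne_zero fun h0 => ?_
    have key' := key
    rw [show Nat.card (groupCohomology.H2 (Rep.ofAlgebraAutOnUnits F L)) = 0 from h0,
      zero_dvd_iff] at key'
    omega
  · exact Nat.le_of_dvd hpos key

end Local

end Fermat.Agent.S55.H40
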