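/-
Program C (S55), package C1, TATE-3 (helper84's `TateSpec`), leaves (T-c), (T-d), (T-e)
(helper40):

* `isZero_H2_of_isCyclic`    (T-c): for a finite cyclic group, `H²` vanishes if every invariant
  is a norm;
* `isZero_H2_of_prime_layers` (T-d): vanishing dévissage in degree 2 to layers of prime order;
* `isZero_H2_of_normSurj`     (T-e), TWIN-2: `Ĥ⁰(H, E) = 0` and `H¹(H, E) = 0` for all subgroups
  `H ≤ G` imply `H²(G, E) = 0`.
-/
import Mathlib
import Fermat.Agent.S55.H55.PrimeLayers
import Fermat.Agent.S55.H80.ResIndexCor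
import Fermat.Agent.S55.H84.HerbrandCyclic
import Fermat.Agent.S55.H84.InfRes2
import Fermat.Agent.S55.H84.TateDefs

set_option autoImplicit false

universe u

open CategoryTheory groupCohomology Rep

namespace Fermat.Agent.S55.H40

open Fermat.Agent.S55.H84

section General

variable {k G : Type u} [CommRing k] [Group G]

/-- **(T-c)** For a finite cyclic group, `H²` vanishes if every invariant is a norm. -/
theorem isZero_H2_of_isCyclic {C : Type u} [Group C] [Finite C] [IsCyclic C] (X : Rep k C)
    (h : ∀ x : X, (∀ g : C, X.ρ g x = x) → ∃ y : X, x = ∑ᶠ g : C, X.ρ g y) :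
    Limits.IsZero (groupCohomology X 2) := by
  classical
  let _ : Fintype C := Fintype.ofFinite C
  obtain ⟨g, hg⟩ := IsCyclic.exists_generator (α := C)
  let _ : CommGroup C :=
    { (inferInstance : Group C) with
      mul_comm := fun a b => by
        obtain ⟨i, rfl⟩ := Subgroup.mem_zpowers_iff.mp (hg a)
        obtain ⟨j, rfl⟩ := Subgroup.mem_zpowers_iff.mp (hg b)
        exact zpow_mul_comm g i j }
  have hcard := H84.natCard_groupCohomology_even X g hg 2 (by decide)
  have hle : (H84.subHom X g).ker ≤ (H84.normHom X).range := by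
    intro x hx
    rw [AddMonoidHom.mem_ker, H84.subHom_apply, sub_eq_zero] at hx
    have hall : ∀ d : C, X.ρ d x = x := by
      intro d
      obtain ⟨i, rfl⟩ := Subgroup.mem_zpowers_iff.mp (hg d)
      have hinv : X.ρ g⁻¹ x = x := by
        conv_lhs => rw [← hx]
        rw [← Module.End.mul_apply, ← map_mul, inv_mul_cancel, map_one]
        rfl
      induction i using Int.induction_on with
      | zero => rw [zpow_zero, map_one]; rfl
      | succ i ih => rw [zpow_add_one, map_mul, Module.End.mul_apply, hx, ih]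
      | pred i ih => rw [zpow_sub_one, map_mul, Module.End.mul_apply, hinv, ih]
    obtain ⟨y, hy⟩ := h x hall
    refine ⟨y, ?_⟩
    rw [H84.normHom_apply, hy, finsum_eq_sum_of_fintype]
  have h1 : Nat.card (groupCohomology X 2) = 1 := by
    rw [hcard, H84.hIdx]
    exact AddSubgroup.relIndex_eq_one.mpr hle
  have : Subsingleton (groupCohomology X 2) := (Nat.card_eq_one_iff_unique.mp h1).1
  exact ModuleCat.isZero_of_subsingleton _

/-- `H²` of the `p`-subgroups vanishes under the hypotheses of (T-d). -/
theorem isZero_H2_of_card_pow (A : Rep k G)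
    (h1 : ∀ H : Subgroup G, Limits.IsZero (groupCohomology (res H.subtype A) 1))
    (h2 : ∀ (H : Subgroup G) (N : Subgroup H) [N.Normal], (Nat.card (H ⧸ N)).Prime →
      Limits.IsZero (groupCohomology ((res H.subtype A).quotientToInvariants N) 2))
    (p : ℕ) [Fact p.Prime] : ∀ (m : ℕ) (H : Subgroup G), Nat.card H = p ^ m →
      Limits.IsZero (groupCohomology (res H.subtype A) 2) := by
  intro m
  induction m with
  | zero =>
    intro H hH
    have : Subsingleton H := (Nat.card_eq_one_iff_unique.mp (by simpa using hH)).1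
    exact isZero_groupCohomology_succ_of_subsingleton _ 1
  | succ m ih =>
    intro H hH
    obtain ⟨N, hNn, hN, hprime⟩ := H55.exists_normal_card_pow p hH
    have hmap : Nat.card (N.map H.subtype) = p ^ m := by
      rw [Subgroup.card_map_of_injective H.subtype_injective, hN]
    have h3 : Limits.IsZero (groupCohomology (res N.subtype (res H.subtype A)) 1) :=
      (h1 (N.map H.subtype)).of_iso (H55.resResIso A H N 1)
    have h4 : Limits.IsZero (groupCohomology (res N.subtype (res H.subtype A)) 2) :=
      (ih (N.map H.subtype) hmap).of_iso (H55.resResIso A H N 2)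
    exact H84.isZero_H2_of_isZero (res H.subtype A) N h3 (h2 H N hprime) h4

/-- **(T-d)** Vanishing dévissage in degree 2 (the `IsZero` analogue of C1-d degree 2). -/
theorem isZero_H2_of_prime_layers [Finite G] (A : Rep k G)
    (h1 : ∀ H : Subgroup G, Limits.IsZero (groupCohomology (res H.subtype A) 1))
    (h2 : ∀ (H : Subgroup G) (N : Subgroup H) [N.Normal], (Nat.card (H ⧸ N)).Prime →
      Limits.IsZero (groupCohomology ((res H.subtype A).quotientToInvariants N) 2)) :
    Limits.IsZero (groupCohomology A 2) := by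
  refine H80.isZero_of_forall_prime A 2 (Or.inr rfl) fun p hp => ?_
  have := Fact.mk hp
  obtain ⟨P⟩ : Nonempty (Sylow p G) := inferInstance
  exact ⟨P, P.not_dvd_index, isZero_H2_of_card_pow A h1 h2 p _ P P.card_eq_multiplicity⟩

/-- Summation over a finite group by cosets of a subgroup. -/
theorem sum_eq_sum_quotient_sum {H : Type*} [Group H] (N : Subgroup H) [Fintype H]
    [Fintype (H ⧸ N)] [Fintype N] {M : Type*} [AddCommMonoid M] (f : H → M) :
    ∑ h : H, f h = ∑ d : H ⧸ N, ∑ n : N, f (d.out * n) := by
  have hbij : Function.Bijective (fun x : (H ⧸ N) × N => x.1.out * (x.2 : H)) := by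
    constructor
    · rintro ⟨d, n⟩ ⟨d', n'⟩ hx
      have hx' : d.out * (n : H) = d'.out * (n' : H) := hx
      have hd : d = d' := by
        have h1 : ((d.out * (n : H) : H) : H ⧸ N) = d := by
          rw [QuotientGroup.mk_mul_of_mem _ n.2, QuotientGroup.out_eq']
        have h2 : ((d'.out * (n' : H) : H) : H ⧸ N) = d' := by
          rw [QuotientGroup.mk_mul_of_mem _ n'.2, QuotientGroup.out_eq']
        rw [← h1, ← h2, hx']
      subst hd
      have hn : (n : H) = n' := mul_left_cancel hx'
      rw [Subtype.ext hn]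
    · intro h
      have hmem : (QuotientGroup.mk h : H ⧸ N).out⁻¹ * h ∈ N :=
        QuotientGroup.eq.mp (QuotientGroup.out_eq' _)
      exact ⟨(QuotientGroup.mk h, ⟨_, hmem⟩), mul_inv_cancel_left _ _⟩
  rw [← Fintype.sum_prod_type' (f := fun (d : H ⧸ N) (n : N) => f (d.out * n))]
  exact (Fintype.sum_bijective _ hbij _ _ (fun _ => rfl)).symm

/-- **(T-e) TWIN-2.**  If `Ĥ⁰(H, E) = 0` and `H¹(H, E) = 0` for every subgroup `H ≤ G`, then
`H²(G, E) = 0`. -/
theorem isZero_H2_of_normSurj [Finite G] (E : Rep k G) (h0 : ∀ H : Subgroup G, NormSurj E H)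
    (h1 : ∀ H : Subgroup G, Limits.IsZero (groupCohomology (res H.subtype E) 1)) :
    Limits.IsZero (groupCohomology E 2) := by
  classical
  refine isZero_H2_of_prime_layers E h1 fun H N _ hp => ?_
  have : Fact (Nat.card (H ⧸ N)).Prime := ⟨hp⟩
  have hcyc : IsCyclic (H ⧸ N) := isCyclic_of_prime_card rfl
  refine isZero_H2_of_isCyclic _ fun x hx => ?_
  let _ : Fintype H := Fintype.ofFinite H
  let _ : Fintype N := Fintype.ofFinite N
  let _ : Fintype (H ⧸ N) := Fintype.ofFinite _
  -- the underlying element of `E` is `H`-invariant, hence an `H`-norm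
  have hxH : ∀ h ∈ H, E.ρ h (x.1 : E.V) = x.1 := fun h hh =>
    congrArg Subtype.val (hx (QuotientGroup.mk ⟨h, hh⟩))
  obtain ⟨c, hc⟩ := h0 H x.1 hxH
  rw [finsum_eq_sum_of_fintype] at hc
  -- the `N`-norm of `c`, an `N`-invariant
  let y : ((res H.subtype E).quotientToInvariants N).V :=
    ⟨∑ n : N, E.ρ ((n : H) : G) c, fun s => by
      show E.ρ ((s : H) : G) (∑ n : N, E.ρ ((n : H) : G) c) = ∑ n : N, E.ρ ((n : H) : G) c
      rw [map_sum]
      refine Fintype.sum_equiv (Equiv.mulLeft s) _ _ fun n => ?_
      rw [← Module.End.mul_apply, ← map_mul]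
      rfl⟩
  refine ⟨y, Subtype.ext ?_⟩
  rw [finsum_eq_sum_of_fintype]
  have hval : ∀ d : H ⧸ N,
      ((((res H.subtype E).quotientToInvariants N).ρ d y).1 : E.V) =
        ∑ n : N, E.ρ (((d.out * (n : H) : H)) : G) c := by
    intro d
    have hd : (((res H.subtype E).quotientToInvariants N).ρ d y) =
        (((res H.subtype E).quotientToInvariants N).ρ (QuotientGroup.mk d.out) y) := by
      rw [QuotientGroup.out_eq']
    rw [hd]
    show E.ρ ((d.out : H) : G) (∑ n : N, E.ρ ((n : H) : G) c) = _
    rw [map_sum]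
    refine Finset.sum_congr rfl fun n _ => ?_
    rw [← Module.End.mul_apply, ← map_mul]
    rfl
  have hsum : ((∑ d : H ⧸ N, ((res H.subtype E).quotientToInvariants N).ρ d y).1 : E.V) =
      ∑ d : H ⧸ N, ((((res H.subtype E).quotientToInvariants N).ρ d y).1 : E.V) :=
    map_sum (Submodule.subtype
      (Representation.invariants ((res H.subtype E).ρ.comp N.subtype))) _ _
  rw [hsum, hc, sum_eq_sum_quotient_sum N (fun h : H => E.ρ (h : G) c)]
  exact Finset.sum_congr rfl fun d _ => (hval d).symm

end General

end Fermat.Agent.S55.H40
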