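/-
Program C (S55), package C4, leaf (LV) (helper40): the local level datum at `q` has normal
levels, and every level subgroup has finite index.  Adapter from the landed C0 lemmas
`H99.hasNormalLevels_localDatum` and `H99.finiteIndex_sub_localDatum`.
-/
import Fermat.Agent.S55.H26.LocalInvSpec
import Fermat.Agent.S55.H99.Bridge2
import Fermat.Agent.S55.H99.LcExact

set_option autoImplicit false

namespace Fermat.Agent.S55.H40

/-- **C4 leaf (LV).** -/
theorem localLevelsStatement (q : ℕ) [Fact q.Prime] : H26.LocalLevelsStatement q :=
  ⟨H99.hasNormalLevels_localDatum _, fun F hF => H99.finiteIndex_sub_localDatum _ F hF⟩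

end Fermat.Agent.S55.H40
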