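/-
Program C (S55), package C4, leaf (LI1) (helper40), part 1: roots of unity under the local
Galois group, the value map `uv` of the Galois module `Lˣ`, realisations of level cocycles by
unit-valued cocycles at finite levels.
-/
import Fermat.Agent.S55.H26.LocalInvSpec
import Fermat.Agent.S55.H99.Bridge2

set_option autoImplicit false

open CategoryTheory groupCohomology
open Fermat.Agent.S55.H49 Fermat.Agent.S55.H26

noncomputable section

namespace Fermat.Agent.S55.H40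

variable (p : ℕ) [Fact p.Prime] (q : ℕ) [Fact q.Prime]

/-! ### Roots of unity -/

/-- `σ z = z ^ χ(σ)` for a `p`-th root of unity `z ∈ ℚ̄`. -/
theorem qbar_apply_eq_pow (σ : GQ) {z : AlgebraicClosure ℚ} (hz : z ^ p = 1) :
    σ z = z ^ ((ExtCitation.cycloChar p σ : (ZMod p)ˣ) : ZMod p).val := by
  have : NeZero p := ⟨(Fact.out : p.Prime).ne_zero⟩
  have hz0 : z ≠ 0 := by
    rintro rfl
    rw [zero_pow (NeZero.ne p)] at hz
    exact zero_ne_one hz
  have ht : Units.mk0 z hz0 ∈ rootsOfUnity p (AlgebraicClosure ℚ) := by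
    rw [mem_rootsOfUnity]
    ext
    simpa using hz
  exact modularCyclotomicCharacter.spec (AlgebraicClosure ℚ)
    (ExtCitation.card_rootsOfUnity_eq_self p)
    (σ : AlgebraicClosure ℚ ≃+* AlgebraicClosure ℚ) ht

/-- `g ζ = ζ ^ χ(g)` for a `p`-th root of unity `ζ ∈ Ω` and `g` in the local Galois group. -/
theorem galQ_apply_eq_pow (g : GalQ q) {ζ : PadicAlgCl q} (hζ : ζ ^ p = 1) :
    g ζ = ζ ^ ((chiLoc p q g : (ZMod p)ˣ) : ZMod p).val := by
  have : NeZero p := ⟨(Fact.out : p.Prime).ne_zero⟩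
  have : NeZero (p : AlgebraicClosure ℚ) := ⟨by exact_mod_cast (Fact.out : p.Prime).ne_zero⟩
  obtain ⟨ζ₀, h₀⟩ := HasEnoughRootsOfUnity.exists_primitiveRoot (AlgebraicClosure ℚ) p
  have h₁ : IsPrimitiveRoot (padicEmbedding q ζ₀) p :=
    h₀.map_of_injective (padicEmbedding q).injective
  obtain ⟨i, -, rfl⟩ := h₁.eq_pow_of_pow_eq_one hζ
  have e : g (padicEmbedding q ζ₀) =
      padicEmbedding q ζ₀ ^ ((chiLoc p q g : (ZMod p)ˣ) : ZMod p).val := by
    rw [← padicEmbedding_localGaloisToGlobal, qbar_apply_eq_pow p _ h₀.pow_eq_one, map_pow]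
    rfl
  rw [map_pow, e, ← pow_mul, ← pow_mul, mul_comm]

/-- Powers of a `p`-th root of unity only depend on the exponent modulo `p`. -/
theorem pow_eq_pow_of_natCast_eq {R : Type} [Monoid R] {ζ : R} (hζ : ζ ^ p = 1) {m n : ℕ}
    (h : (m : ZMod p) = (n : ZMod p)) : ζ ^ m = ζ ^ n := by
  have key : ∀ k : ℕ, ζ ^ k = ζ ^ (k % p) := fun k => by
    conv_lhs => rw [← Nat.mod_add_div k p, pow_add, pow_mul, hζ, one_pow, mul_one]
  have h' : m % p = n % p := (ZMod.natCast_eq_natCast_iff _ _ _).1 h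
  rw [key m, key n, h']

/-! ### The value map of the Galois module `Lˣ` -/

section UV

variable {q}
variable {L : IntermediateField ℚ_[q] (PadicAlgCl q)}

/-- The element of `Ω` underlying an element of the Galois module `Lˣ`. -/
def uv (x : Rep.ofAlgebraAutOnUnits ℚ_[q] L) : PadicAlgCl q :=
  (((Additive.toMul (Rep.toAdditive x) : Lˣ) : L) : PadicAlgCl q)

theorem uv_injective : Function.Injective (uv (q := q) (L := L)) := by
  intro x y h
  have h1 : ((Additive.toMul (Rep.toAdditive x) : Lˣ) : L) =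
      ((Additive.toMul (Rep.toAdditive y) : Lˣ) : L) := Subtype.ext h
  have h2 : (Additive.toMul (Rep.toAdditive x) : Lˣ) = Additive.toMul (Rep.toAdditive y) :=
    Units.ext h1
  exact Rep.toAdditive.injective (Additive.toMul.injective h2)

theorem uv_add (x y : Rep.ofAlgebraAutOnUnits ℚ_[q] L) : uv (x + y) = uv x * uv y := rfl

theorem uv_zero : uv (0 : Rep.ofAlgebraAutOnUnits ℚ_[q] L) = 1 := rfl

theorem uv_ne_zero (x : Rep.ofAlgebraAutOnUnits ℚ_[q] L) : uv x ≠ 0 := by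
  intro h
  have h1 : ((Additive.toMul (Rep.toAdditive x) : Lˣ) : L) = 0 := Subtype.ext h
  exact Units.ne_zero _ h1

theorem uv_nsmul (n : ℕ) (x : Rep.ofAlgebraAutOnUnits ℚ_[q] L) : uv (n • x) = uv x ^ n := by
  induction n with
  | zero => rw [zero_smul, pow_zero, uv_zero]
  | succ n ih => rw [succ_nsmul, uv_add, ih, pow_succ]

theorem uv_ρ [Normal ℚ_[q] L] (g : GalQ q) (x : Rep.ofAlgebraAutOnUnits ℚ_[q] L) :
    uv ((Rep.ofAlgebraAutOnUnits ℚ_[q] L).ρ (AlgEquiv.restrictNormalHom L g) x) = g (uv x) :=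
  AlgEquiv.restrictNormal_commutes g L _

omit [Fact p.Prime] in
theorem uv_zetaPow (ζ : Lˣ) (a : ZMod p) :
    uv (zetaPow p ζ a) = ((ζ : L) : PadicAlgCl q) ^ a.val := rfl

end UV

/-! ### Level cocycles with values in `𝔽_p(χ)` -/

section LevelCocycles

/-- The 2-cocycle identity of a level cocycle. -/
theorem lcVal_cocycle (z : cyc (lcComplex (Dloc q) (mu (chiLoc p q))) 2) (g h j : GalQ q) :
    lcVal z ![g * h, j] + lcVal z ![g, h] =
      ((chiLoc p q g : (ZMod p)ˣ) : ZMod p) * lcVal z ![h, j] + lcVal z ![g, h * j] := by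
  have hz : (inhomogeneousCochains.d (mu (chiLoc p q)) 2).hom (lcVal z) = 0 := by
    have h1 := H99.lcValC_d (Dloc q) (mu (chiLoc p q)) 2 z.1
    rw [mem_cyc.mp z.2] at h1
    exact h1.symm
  have hz' : (fun g : Fin 2 → GalQ q => lcVal z ![g 0, g 1]) = lcVal z := by
    funext g
    rw [H99.fin_two_eta]
  have hc : (fun x : GalQ q × GalQ q => lcVal z ![x.1, x.2]) ∈ cocycles₂ (mu (chiLoc p q)) := by
    rw [← H99.d_two_eq_zero_iff]
    show (inhomogeneousCochains.d (mu (chiLoc p q)) 2).hom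
      (fun g : Fin 2 → GalQ q => lcVal z ![g 0, g 1]) = 0
    rw [hz', hz]
  exact (mem_cocycles₂_iff _).1 hc g h j

/-- The level of a level cocycle. -/
theorem lcVal_level (z : cyc (lcComplex (Dloc q) (mu (chiLoc p q))) 2) :
    ∃ F : IntermediateField ℚ (AlgebraicClosure ℚ), (Dloc q).Lev F ∧
      ∀ g g' : Fin 2 → GalQ q, (∀ i, (g i)⁻¹ * g' i ∈ (Dloc q).sub F) →
        lcVal z g = lcVal z g' := by
  obtain ⟨F, hF, -, h⟩ : IsLC (Dloc q) (mu (chiLoc p q)) (lcVal z) :=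
    (z.1 : lcCochains (Dloc q) (mu (chiLoc p q)) 2).2
  exact ⟨F, hF, fun g g' hg => h.congr hg⟩

theorem lcVal_add (z z' : cyc (lcComplex (Dloc q) (mu (chiLoc p q))) 2) (g : Fin 2 → GalQ q) :
    lcVal (z + z') g = lcVal z g + lcVal z' g := rfl

end LevelCocycles

/-! ### Realisations -/

section RealAt

variable {q}

/-- The unit-valued cocycle `c` of `Gal(L/ℚ_q)` realises the level cocycle `z`:
`c (σ|L, τ|L) = ζ ^ z (σ, τ)`, read in `Ω`. -/
def RealAt (ζ : PadicAlgCl q) (L : IntermediateField ℚ_[q] (PadicAlgCl q)) [Normal ℚ_[q] L]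
    (z : cyc (lcComplex (Dloc q) (mu (chiLoc p q))) 2)
    (c : cocycles₂ (Rep.ofAlgebraAutOnUnits ℚ_[q] L)) : Prop :=
  ∀ g h : GalQ q,
    uv (c.1 (AlgEquiv.restrictNormalHom L g, AlgEquiv.restrictNormalHom L h)) =
      ζ ^ (lcVal z ![g, h]).val

variable {p}

theorem restrictNormalHom_surj (L : IntermediateField ℚ_[q] (PadicAlgCl q)) [Normal ℚ_[q] L] :
    Function.Surjective (AlgEquiv.restrictNormalHom L :
      GalQ q → (L ≃ₐ[ℚ_[q]] L)) :=
  AlgEquiv.restrictNormalHom_surjective (PadicAlgCl q)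

/-- The correspondence of `H26.Corr` gives a realisation. -/
theorem real_of_corr {ζ : PadicAlgCl q} (L : IntermediateField ℚ_[q] (PadicAlgCl q))
    [Normal ℚ_[q] L] (ζL : Lˣ) (hζL : ((ζL : L) : PadicAlgCl q) = ζ)
    (z : cyc (lcComplex (Dloc q) (mu (chiLoc p q))) 2)
    (c : cocycles₂ (Rep.ofAlgebraAutOnUnits ℚ_[q] L))
    (h : ∀ g : Fin 2 → GalQ q,
      c.1 (AlgEquiv.restrictNormalHom L (g 0), AlgEquiv.restrictNormalHom L (g 1)) =
        zetaPow p ζL (lcVal z g)) : RealAt p ζ L z c := by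
  intro g g'
  have e := h ![g, g']
  have e' : c.1 (AlgEquiv.restrictNormalHom L g, AlgEquiv.restrictNormalHom L g') =
      zetaPow p ζL (lcVal z ![g, g']) := e
  rw [e', uv_zetaPow, hζL]

/-- Sums of realisations. -/
theorem RealAt.add {ζ : PadicAlgCl q} (hζ : ζ ^ p = 1)
    {L : IntermediateField ℚ_[q] (PadicAlgCl q)} [Normal ℚ_[q] L]
    {z z' : cyc (lcComplex (Dloc q) (mu (chiLoc p q))) 2}
    {c c' : cocycles₂ (Rep.ofAlgebraAutOnUnits ℚ_[q] L)}
    (h : RealAt p ζ L z c) (h' : RealAt p ζ L z' c') : RealAt p ζ L (z + z') (c + c') := by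
  have : NeZero p := ⟨(Fact.out : p.Prime).ne_zero⟩
  intro g g'
  have e : (c + c').1 (AlgEquiv.restrictNormalHom L g, AlgEquiv.restrictNormalHom L g') =
      c.1 (AlgEquiv.restrictNormalHom L g, AlgEquiv.restrictNormalHom L g') +
        c'.1 (AlgEquiv.restrictNormalHom L g, AlgEquiv.restrictNormalHom L g') := rfl
  rw [e, uv_add, h g g', h' g g', lcVal_add, ← pow_add]
  refine pow_eq_pow_of_natCast_eq p hζ ?_
  rw [Nat.cast_add, ZMod.natCast_zmod_val, ZMod.natCast_zmod_val, ZMod.natCast_zmod_val]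

/-- A realised class is killed by `p`. -/
theorem RealAt.nsmul_H2π {ζ : PadicAlgCl q} (hζ : ζ ^ p = 1)
    {L : IntermediateField ℚ_[q] (PadicAlgCl q)} [Normal ℚ_[q] L]
    {z : cyc (lcComplex (Dloc q) (mu (chiLoc p q))) 2}
    {c : cocycles₂ (Rep.ofAlgebraAutOnUnits ℚ_[q] L)} (h : RealAt p ζ L z c) :
    p • H2π (Rep.ofAlgebraAutOnUnits ℚ_[q] L) c = 0 := by
  have hc : p • c = 0 := by
    apply Subtype.ext
    funext ⟨a, b⟩
    obtain ⟨g, rfl⟩ := restrictNormalHom_surj L a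
    obtain ⟨g', rfl⟩ := restrictNormalHom_surj L b
    apply uv_injective
    have e : (p • c).1 (AlgEquiv.restrictNormalHom L g, AlgEquiv.restrictNormalHom L g') =
        p • c.1 (AlgEquiv.restrictNormalHom L g, AlgEquiv.restrictNormalHom L g') := rfl
    rw [e, uv_nsmul, h g g', ← pow_mul, mul_comm, pow_mul, hζ, one_pow]
    rfl
  rw [← map_nsmul, hc, map_zero]

end RealAt

/-! ### Existence of realisations -/

section Exists

variable {q} {p}

/-- Construction of a realisation at a finite level `E ∋ ζ` modulo which `z` is constant. -/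
theorem exists_real {ζ : PadicAlgCl q} (hζ : ζ ^ p = 1)
    (E : IntermediateField ℚ_[q] (PadicAlgCl q)) [Normal ℚ_[q] E] (hζE : ζ ∈ E)
    (z : cyc (lcComplex (Dloc q) (mu (chiLoc p q))) 2)
    (hz : ∀ g g' : Fin 2 → GalQ q, (∀ i, (g i)⁻¹ * g' i ∈ E.fixingSubgroup) →
      lcVal z g = lcVal z g') :
    ∃ c : cocycles₂ (Rep.ofAlgebraAutOnUnits ℚ_[q] E), RealAt p ζ E z c := by
  have : NeZero p := ⟨(Fact.out : p.Prime).ne_zero⟩
  have hζ0 : (⟨ζ, hζE⟩ : E) ≠ 0 := by
    intro h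
    have h' : ζ = 0 := congrArg Subtype.val h
    rw [h', zero_pow (NeZero.ne p)] at hζ
    exact zero_ne_one hζ
  let ζE : Eˣ := Units.mk0 ⟨ζ, hζE⟩ hζ0
  let s : (E ≃ₐ[ℚ_[q]] E) → GalQ q := Function.surjInv (restrictNormalHom_surj E)
  have hs : ∀ a, AlgEquiv.restrictNormalHom E (s a) = a :=
    Function.surjInv_eq (restrictNormalHom_surj E)
  let c₀ : (E ≃ₐ[ℚ_[q]] E) × (E ≃ₐ[ℚ_[q]] E) → Rep.ofAlgebraAutOnUnits ℚ_[q] E :=
    fun ab => zetaPow p ζE (lcVal z ![s ab.1, s ab.2])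
  have hker : ∀ g : GalQ q, (s (AlgEquiv.restrictNormalHom E g))⁻¹ * g ∈ E.fixingSubgroup := by
    intro g
    rw [← IntermediateField.restrictNormalHom_ker, MonoidHom.mem_ker, map_mul, map_inv, hs,
      inv_mul_cancel]
  have key : ∀ g h : GalQ q,
      uv (c₀ (AlgEquiv.restrictNormalHom E g, AlgEquiv.restrictNormalHom E h)) =
        ζ ^ (lcVal z ![g, h]).val := by
    intro g h
    have e : lcVal z ![s (AlgEquiv.restrictNormalHom E g), s (AlgEquiv.restrictNormalHom E h)] =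
        lcVal z ![g, h] := by
      refine hz _ _ fun i => ?_
      fin_cases i
      · exact hker g
      · exact hker h
    show uv (zetaPow p ζE (lcVal z ![s _, s _])) = _
    rw [e, uv_zetaPow]
    rfl
  have hc₀ : c₀ ∈ cocycles₂ (Rep.ofAlgebraAutOnUnits ℚ_[q] E) := by
    rw [mem_cocycles₂_iff]
    intro a b d
    obtain ⟨g, rfl⟩ := restrictNormalHom_surj E a
    obtain ⟨h, rfl⟩ := restrictNormalHom_surj E b
    obtain ⟨j, rfl⟩ := restrictNormalHom_surj E d
    apply uv_injective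
    rw [← map_mul, ← map_mul, uv_add, uv_add, uv_ρ, key, key, key, key, map_pow,
      galQ_apply_eq_pow p q g hζ, ← pow_mul, ← pow_add, ← pow_add]
    refine pow_eq_pow_of_natCast_eq p hζ ?_
    push_cast
    rw [ZMod.natCast_zmod_val, ZMod.natCast_zmod_val, ZMod.natCast_zmod_val,
      ZMod.natCast_zmod_val, ZMod.natCast_zmod_val]
    exact lcVal_cocycle p q z g h j
  exact ⟨⟨c₀, hc₀⟩, key⟩

variable (q) in
/-- Hypothesis (LVL)(a): every level subgroup contains the absolute Galois group of a finite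
Galois extension of `ℚ_q`. -/
def LvlHyp : Prop :=
  ∀ F : IntermediateField ℚ (AlgebraicClosure ℚ), (Dloc q).Lev F →
    ∃ L : IntermediateField ℚ_[q] (PadicAlgCl q), FiniteDimensional ℚ_[q] L ∧
      IsGalois ℚ_[q] L ∧ L.fixingSubgroup ≤ (Dloc q).sub F

/-- A finite Galois extension of `ℚ_q` containing given data. -/
theorem exists_field (hLvl : LvlHyp q) (ζ : PadicAlgCl q)
    (F : IntermediateField ℚ (AlgebraicClosure ℚ)) (hF : (Dloc q).Lev F)
    (L₁ L₂ : IntermediateField ℚ_[q] (PadicAlgCl q)) [FiniteDimensional ℚ_[q] L₁]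
    [FiniteDimensional ℚ_[q] L₂] :
    ∃ E : IntermediateField ℚ_[q] (PadicAlgCl q), FiniteDimensional ℚ_[q] E ∧
      IsGalois ℚ_[q] E ∧ ζ ∈ E ∧ L₁ ≤ E ∧ L₂ ≤ E ∧ E.fixingSubgroup ≤ (Dloc q).sub F := by
  obtain ⟨L₀, h1, h2, h3⟩ := hLvl F hF
  have hζi : IsIntegral ℚ_[q] ζ := Algebra.IsIntegral.isIntegral ζ
  have : FiniteDimensional ℚ_[q] (IntermediateField.adjoin ℚ_[q] {ζ}) := IntermediateField.adjoin.finiteDimensional hζi
  let M : IntermediateField ℚ_[q] (PadicAlgCl q) := L₀ ⊔ L₁ ⊔ L₂ ⊔ (IntermediateField.adjoin ℚ_[q] {ζ})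
  have hM : FiniteDimensional ℚ_[q] M := inferInstance
  have hle : M ≤ IntermediateField.normalClosure ℚ_[q] M (PadicAlgCl q) :=
    IntermediateField.le_normalClosure M
  refine ⟨IntermediateField.normalClosure ℚ_[q] M (PadicAlgCl q), inferInstance, ⟨⟩, ?_, ?_, ?_,
    ?_⟩
  · exact hle ((le_sup_right : (IntermediateField.adjoin ℚ_[q] {ζ}) ≤ M) (IntermediateField.mem_adjoin_simple_self ℚ_[q] ζ))
  · exact (le_trans (le_trans le_sup_right le_sup_left) le_sup_left : L₁ ≤ M).trans hle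
  · exact (le_trans le_sup_right le_sup_left : L₂ ≤ M).trans hle
  · refine le_trans (IntermediateField.fixingSubgroup_antitone ?_) h3
    exact (le_trans (le_trans le_sup_left le_sup_left) le_sup_left : L₀ ≤ M).trans hle

end Exists

end Fermat.Agent.S55.H40
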