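/-
Program C (S55), package C4, leaf (LI1) (helper40), part 2: independence of the realisation,
and the construction of the local invariant on level-constant cohomology.
-/
import Fermat.Agent.S55.H40.LocalInvCore

set_option autoImplicit false

open CategoryTheory groupCohomology
open Fermat.Agent.S55.H49 Fermat.Agent.S55.H26

noncomputable section

namespace Fermat.Agent.S55.H40

variable {p : ℕ} [Fact p.Prime] {q : ℕ} [Fact q.Prime]

/-! ### Inflation of realisations -/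

theorem resHom_restrictNormalHom {L E : IntermediateField ℚ_[q] (PadicAlgCl q)}
    [Normal ℚ_[q] L] [Normal ℚ_[q] E] (h : L ≤ E) (g : GalQ q) :
    H66.resHom h (AlgEquiv.restrictNormalHom E g) = AlgEquiv.restrictNormalHom L g := by
  apply AlgEquiv.ext
  intro x
  apply Subtype.ext
  rw [H66.resHom_apply]
  have e1 := AlgEquiv.restrictNormal_commutes g E (IntermediateField.inclusion h x)
  have e2 := AlgEquiv.restrictNormal_commutes g L x
  exact e1.trans e2.symm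

theorem uv_inflRep {L E : IntermediateField ℚ_[q] (PadicAlgCl q)} [Normal ℚ_[q] L]
    (h : L ≤ E) (x : Rep.ofAlgebraAutOnUnits ℚ_[q] L) :
    uv ((H66.inflRep h).hom x) = uv x := rfl

theorem mapCocycles₂_inflRep_apply {L E : IntermediateField ℚ_[q] (PadicAlgCl q)}
    [Normal ℚ_[q] L] (h : L ≤ E) (c : cocycles₂ (Rep.ofAlgebraAutOnUnits ℚ_[q] L))
    (a b : E ≃ₐ[ℚ_[q]] E) :
    (mapCocycles₂ (H66.resHom h) (H66.inflRep h) c).1 (a, b) =
      (H66.inflRep h).hom (c.1 (H66.resHom h a, H66.resHom h b)) := rfl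

/-- The inflation of a realisation is a realisation. -/
theorem RealAt.infl {ζ : PadicAlgCl q} {L E : IntermediateField ℚ_[q] (PadicAlgCl q)}
    [Normal ℚ_[q] L] [Normal ℚ_[q] E] (h : L ≤ E)
    {z : cyc (lcComplex (Dloc q) (mu (chiLoc p q))) 2}
    {c : cocycles₂ (Rep.ofAlgebraAutOnUnits ℚ_[q] L)} (hc : RealAt p ζ L z c) :
    RealAt p ζ E z (mapCocycles₂ (H66.resHom h) (H66.inflRep h) c) := by
  intro g g'
  rw [mapCocycles₂_inflRep_apply, resHom_restrictNormalHom, resHom_restrictNormalHom, uv_inflRep]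
  exact hc g g'

/-- Cohomologous level cocycles differ by the coboundary of a level-constant 1-cochain. -/
theorem exists_cochain (z z' : cyc (lcComplex (Dloc q) (mu (chiLoc p q))) 2)
    (hz : (cls (lcComplex (Dloc q) (mu (chiLoc p q))) 2).hom z =
      (cls (lcComplex (Dloc q) (mu (chiLoc p q))) 2).hom z') :
    ∃ (w : GalQ q → ZMod p) (F : IntermediateField ℚ (AlgebraicClosure ℚ)), (Dloc q).Lev F ∧
      (∀ g s : GalQ q, s ∈ (Dloc q).sub F → w (g * s) = w g) ∧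
      ∀ g h : GalQ q, lcVal z ![g, h] - lcVal z' ![g, h] =
        ((chiLoc p q g : (ZMod p)ˣ) : ZMod p) * w h - w (g * h) + w g := by
  obtain ⟨y, hy⟩ := (cls_eq_cls_iff (lcComplex (Dloc q) (mu (chiLoc p q))) 1 z z').1 hz
  obtain ⟨F, hF, -, hw, -⟩ : IsLC (Dloc q) (mu (chiLoc p q)) (lcValC y) :=
    (y : lcCochains (Dloc q) (mu (chiLoc p q)) 1).2
  obtain ⟨w, hwdef⟩ : ∃ w : GalQ q → ZMod p, w = fun a => lcValC y (fun _ => a) := ⟨_, rfl⟩
  refine ⟨w, F, hF, fun g s hs => ?_, fun g h => ?_⟩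
  · rw [hwdef]
    exact hw (fun _ => g) (fun _ => s) fun _ => hs
  have h1 : lcValC (((lcComplex (Dloc q) (mu (chiLoc p q))).d 1 (1 + 1)).hom y) =
      lcValC (z.1 - z'.1) := congrArg lcValC hy
  rw [H99.lcValC_d] at h1
  have h2 : (fun g : Fin 1 → GalQ q => w (g 0)) = lcValC y := by
    funext g
    rw [hwdef]
    show lcValC y (fun _ => g 0) = lcValC y g
    rw [H99.fin_one_eta]
  have h4 := H99.d_one_apply (mu (chiLoc p q)) w
  rw [h2, h1] at h4
  have h3 := congrFun h4 ![g, h]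
  rw [d₁₂_hom_apply] at h3
  exact h3

/-- A 1-cochain of `Gal(E/ℚ_q)` with values `ζ ^ w`, for `w` constant modulo `Gal(Ω/E)`. -/
theorem exists_unit_cochain {ζ : PadicAlgCl q} (hζ : ζ ^ p = 1)
    (E : IntermediateField ℚ_[q] (PadicAlgCl q)) [Normal ℚ_[q] E] (hζE : ζ ∈ E)
    (w : GalQ q → ZMod p)
    (hw : ∀ g s : GalQ q, s ∈ E.fixingSubgroup → w (g * s) = w g) :
    ∃ b : (E ≃ₐ[ℚ_[q]] E) → Rep.ofAlgebraAutOnUnits ℚ_[q] E,
      ∀ g : GalQ q, uv (b (AlgEquiv.restrictNormalHom E g)) = ζ ^ (w g).val := by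
  have : NeZero p := ⟨(Fact.out : p.Prime).ne_zero⟩
  have hζ0 : (⟨ζ, hζE⟩ : E) ≠ 0 := by
    intro h
    have h' : ζ = 0 := congrArg Subtype.val h
    rw [h', zero_pow (NeZero.ne p)] at hζ
    exact zero_ne_one hζ
  let ζE : Eˣ := Units.mk0 ⟨ζ, hζE⟩ hζ0
  let s : (E ≃ₐ[ℚ_[q]] E) → GalQ q := Function.surjInv (restrictNormalHom_surj E)
  have hs : ∀ a, AlgEquiv.restrictNormalHom E (s a) = a :=
    Function.surjInv_eq (restrictNormalHom_surj E)
  refine ⟨fun a => zetaPow p ζE (w (s a)), fun g => ?_⟩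
  have hk : (s (AlgEquiv.restrictNormalHom E g))⁻¹ * g ∈ E.fixingSubgroup := by
    rw [← IntermediateField.restrictNormalHom_ker, MonoidHom.mem_ker, map_mul, map_inv, hs,
      inv_mul_cancel]
  have e : w (s (AlgEquiv.restrictNormalHom E g)) = w g := by
    have := hw (s (AlgEquiv.restrictNormalHom E g)) _ hk
    rw [mul_inv_cancel_left] at this
    exact this.symm
  show uv (zetaPow p ζE (w (s _))) = _
  rw [e, uv_zetaPow]
  rfl

/-- Two realisations at the same finite level `E` of level cocycles differing by the coboundary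
of `w` (constant modulo `Gal(Ω/E)`) are cohomologous. -/
theorem H2π_eq_of_real {ζ : PadicAlgCl q} (hζ : ζ ^ p = 1)
    (E : IntermediateField ℚ_[q] (PadicAlgCl q)) [Normal ℚ_[q] E] (hζE : ζ ∈ E)
    (z z' : cyc (lcComplex (Dloc q) (mu (chiLoc p q))) 2)
    (c c' : cocycles₂ (Rep.ofAlgebraAutOnUnits ℚ_[q] E))
    (hc : RealAt p ζ E z c) (hc' : RealAt p ζ E z' c') (w : GalQ q → ZMod p)
    (hw : ∀ g s : GalQ q, s ∈ E.fixingSubgroup → w (g * s) = w g)
    (hval : ∀ g h : GalQ q, lcVal z ![g, h] - lcVal z' ![g, h] =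
        ((chiLoc p q g : (ZMod p)ˣ) : ZMod p) * w h - w (g * h) + w g) :
    H2π (Rep.ofAlgebraAutOnUnits ℚ_[q] E) c = H2π (Rep.ofAlgebraAutOnUnits ℚ_[q] E) c' := by
  have : NeZero p := ⟨(Fact.out : p.Prime).ne_zero⟩
  obtain ⟨b, hb⟩ := exists_unit_cochain hζ E hζE w hw
  have hpt : ∀ g h : GalQ q,
      (d₁₂ (Rep.ofAlgebraAutOnUnits ℚ_[q] E)).hom b
          (AlgEquiv.restrictNormalHom E g, AlgEquiv.restrictNormalHom E h) =
        c.1 (AlgEquiv.restrictNormalHom E g, AlgEquiv.restrictNormalHom E h) -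
          c'.1 (AlgEquiv.restrictNormalHom E g, AlgEquiv.restrictNormalHom E h) := by
    intro g h
    have key : c.1 (AlgEquiv.restrictNormalHom E g, AlgEquiv.restrictNormalHom E h) +
          b (AlgEquiv.restrictNormalHom E g * AlgEquiv.restrictNormalHom E h) =
        (Rep.ofAlgebraAutOnUnits ℚ_[q] E).ρ (AlgEquiv.restrictNormalHom E g)
          (b (AlgEquiv.restrictNormalHom E h)) + b (AlgEquiv.restrictNormalHom E g) +
        c'.1 (AlgEquiv.restrictNormalHom E g, AlgEquiv.restrictNormalHom E h) := by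
      apply uv_injective
      rw [uv_add, uv_add, uv_add, uv_ρ, hc g h, hc' g h, ← map_mul, hb, hb, hb, map_pow,
        galQ_apply_eq_pow p q g hζ, ← pow_mul, ← pow_add, ← pow_add, ← pow_add]
      refine pow_eq_pow_of_natCast_eq p hζ ?_
      push_cast
      rw [ZMod.natCast_zmod_val, ZMod.natCast_zmod_val, ZMod.natCast_zmod_val,
        ZMod.natCast_zmod_val, ZMod.natCast_zmod_val, ZMod.natCast_zmod_val]
      linear_combination hval g h
    rw [d₁₂_hom_apply, eq_sub_of_add_eq key]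
    abel
  refine (H2π_eq_iff c c').2 ⟨b, ?_⟩
  funext x
  obtain ⟨g, hg⟩ := restrictNormalHom_surj E x.1
  obtain ⟨h, hh⟩ := restrictNormalHom_surj E x.2
  have hx : x = (AlgEquiv.restrictNormalHom E g, AlgEquiv.restrictNormalHom E h) :=
    Prod.ext hg.symm hh.symm
  rw [hx]
  exact hpt g h

/-- Two realisations of cohomologous level cocycles become cohomologous after inflation to a
larger finite level. -/
theorem exists_infl_eq (hLvl : LvlHyp q) {ζ : PadicAlgCl q} (hζ : ζ ^ p = 1)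
    (L L' : IntermediateField ℚ_[q] (PadicAlgCl q)) [FiniteDimensional ℚ_[q] L]
    [IsGalois ℚ_[q] L] [FiniteDimensional ℚ_[q] L'] [IsGalois ℚ_[q] L']
    (z z' : cyc (lcComplex (Dloc q) (mu (chiLoc p q))) 2)
    (c : cocycles₂ (Rep.ofAlgebraAutOnUnits ℚ_[q] L))
    (c' : cocycles₂ (Rep.ofAlgebraAutOnUnits ℚ_[q] L'))
    (hz : (cls (lcComplex (Dloc q) (mu (chiLoc p q))) 2).hom z =
      (cls (lcComplex (Dloc q) (mu (chiLoc p q))) 2).hom z')
    (hc : RealAt p ζ L z c) (hc' : RealAt p ζ L' z' c') :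
    ∃ (E : IntermediateField ℚ_[q] (PadicAlgCl q)) (_ : FiniteDimensional ℚ_[q] E)
      (_ : IsGalois ℚ_[q] E) (hLE : L ≤ E) (hL'E : L' ≤ E),
      (H66.inflH2 hLE).hom (H2π (Rep.ofAlgebraAutOnUnits ℚ_[q] L) c) =
        (H66.inflH2 hL'E).hom (H2π (Rep.ofAlgebraAutOnUnits ℚ_[q] L') c') := by
  obtain ⟨w, F, hF, hwF, hval⟩ := exists_cochain z z' hz
  obtain ⟨E, hE1, hE2, hζE, hLE, hL'E, hEF⟩ := exists_field hLvl ζ F hF L L'
  refine ⟨E, hE1, hE2, hLE, hL'E, ?_⟩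
  have hH := H2π_eq_of_real hζ E hζE z z' _ _ (hc.infl hLE) (hc'.infl hL'E) w
    (fun g s hs => hwF g s (hEF hs)) hval
  have i1 : (H66.inflH2 hLE).hom (H2π (Rep.ofAlgebraAutOnUnits ℚ_[q] L) c) =
      H2π (Rep.ofAlgebraAutOnUnits ℚ_[q] E)
        (mapCocycles₂ (H66.resHom hLE) (H66.inflRep hLE) c) :=
    H2π_comp_map_apply (H66.resHom hLE) (H66.inflRep hLE) c
  have i2 : (H66.inflH2 hL'E).hom (H2π (Rep.ofAlgebraAutOnUnits ℚ_[q] L') c') =
      H2π (Rep.ofAlgebraAutOnUnits ℚ_[q] E)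
        (mapCocycles₂ (H66.resHom hL'E) (H66.inflRep hL'E) c') :=
    H2π_comp_map_apply (H66.resHom hL'E) (H66.inflRep hL'E) c'
  rw [i1, i2, hH]

/-! ### The values `a / p` in `ℚ/ℤ` -/

section QZ

variable (p)

theorem qzOfZMod_intCast (n : ℤ) :
    qzOfZMod p (n : ZMod p) = (((n : ℚ) / (p : ℚ) : ℚ) : H66.QZ) := by
  have : NeZero p := ⟨(Fact.out : p.Prime).ne_zero⟩
  have hp : (p : ℚ) ≠ 0 := by exact_mod_cast (Fact.out : p.Prime).ne_zero
  have h1 : (((n : ZMod p).val : ℤ)) = n % p := ZMod.val_intCast n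
  have h2 : (((n : ZMod p).val : ℚ)) = (n : ℚ) - (p : ℚ) * ((n / (p : ℤ) : ℤ) : ℚ) := by
    have h3 : (((n : ZMod p).val : ℤ) : ℚ) = ((n % p : ℤ) : ℚ) := by rw [h1]
    rw [Int.emod_def] at h3
    push_cast at h3
    exact h3
  have h4 : (((n / (p : ℤ) : ℤ) : ℚ) : H66.QZ) = 0 :=
    (AddCircle.coe_eq_zero_iff _).2 ⟨n / p, by simp⟩
  unfold qzOfZMod
  rw [h2, sub_div, mul_div_cancel_left₀ _ hp, AddCircle.coe_sub, h4, sub_zero]

theorem qzOfZMod_add (a b : ZMod p) :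
    qzOfZMod p (a + b) = qzOfZMod p a + qzOfZMod p b := by
  have : NeZero p := ⟨(Fact.out : p.Prime).ne_zero⟩
  have e : a + b = (((a.val : ℤ) + (b.val : ℤ) : ℤ) : ZMod p) := by
    push_cast
    rw [ZMod.natCast_zmod_val, ZMod.natCast_zmod_val]
  rw [e, qzOfZMod_intCast]
  unfold qzOfZMod
  rw [← AddCircle.coe_add]
  congr 1
  push_cast
  ring

theorem qzOfZMod_injective : Function.Injective (qzOfZMod p) := by
  have : NeZero p := ⟨(Fact.out : p.Prime).ne_zero⟩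
  have hp : (p : ℚ) ≠ 0 := by exact_mod_cast (Fact.out : p.Prime).ne_zero
  intro a b h
  unfold qzOfZMod at h
  rw [← sub_eq_zero, ← AddCircle.coe_sub, AddCircle.coe_eq_zero_iff] at h
  obtain ⟨n, hn⟩ := h
  have h1 : ((a.val : ℤ) : ℚ) - ((b.val : ℤ) : ℚ) = ((n * (p : ℤ) : ℤ) : ℚ) := by
    push_cast
    rw [zsmul_eq_mul, mul_one] at hn
    rw [hn]
    field_simp
  have h2 : (a.val : ℤ) - (b.val : ℤ) = n * (p : ℤ) := by exact_mod_cast h1
  have h3 : (((a.val : ℤ) - (b.val : ℤ) : ℤ) : ZMod p) = 0 := by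
    rw [h2]
    simp
  push_cast at h3
  rw [ZMod.natCast_zmod_val, ZMod.natCast_zmod_val, sub_eq_zero] at h3
  exact h3

theorem exists_qzOfZMod_eq (t : H66.QZ) (ht : p • t = 0) : ∃ a : ZMod p, qzOfZMod p a = t := by
  have hp : (p : ℚ) ≠ 0 := by exact_mod_cast (Fact.out : p.Prime).ne_zero
  obtain ⟨x, rfl⟩ := QuotientAddGroup.mk_surjective t
  have ht' : ((p • x : ℚ) : H66.QZ) = 0 := ht
  rw [AddCircle.coe_eq_zero_iff] at ht'
  obtain ⟨n, hn⟩ := ht'
  refine ⟨(n : ZMod p), ?_⟩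
  rw [qzOfZMod_intCast]
  have e : (n : ℚ) / (p : ℚ) = x := by
    rw [zsmul_eq_mul, mul_one, nsmul_eq_mul] at hn
    rw [hn]
    field_simp
  rw [e]

end QZ

/-! ### The local invariant -/

theorem H2π_add_apply (E : IntermediateField ℚ_[q] (PadicAlgCl q))
    (c c' : cocycles₂ (Rep.ofAlgebraAutOnUnits ℚ_[q] E)) :
    H2π (Rep.ofAlgebraAutOnUnits ℚ_[q] E) (c + c') =
      H2π (Rep.ofAlgebraAutOnUnits ℚ_[q] E) c + H2π (Rep.ofAlgebraAutOnUnits ℚ_[q] E) c' :=
  map_add (H2π (Rep.ofAlgebraAutOnUnits ℚ_[q] E)).hom c c'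

theorem inv_H2π_add (E : IntermediateField ℚ_[q] (PadicAlgCl q)) [Normal ℚ_[q] E]
    (c c' : cocycles₂ (Rep.ofAlgebraAutOnUnits ℚ_[q] E)) :
    H66.inv q E (H2π (Rep.ofAlgebraAutOnUnits ℚ_[q] E) (c + c')) =
      H66.inv q E (H2π (Rep.ofAlgebraAutOnUnits ℚ_[q] E) c) +
        H66.inv q E (H2π (Rep.ofAlgebraAutOnUnits ℚ_[q] E) c') := by
  rw [H2π_add_apply]
  exact map_add (H66.inv q E) _ _

variable (p q)

/-- **C4 leaf (LI1)**, from C3's inflation compatibility and (LVL)(a): existence of the local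
invariant on `H²(G_q, 𝔽_p(χ))` (level-constant cohomology). -/
theorem localInvExists_of (hInfl : H66.LeafInvInfl q) (hLvl : LvlHyp q) :
    H26.LocalInvExistsStatement p q := by
  intro ζ hζp
  have hζ : ζ ^ p = 1 := hζp.pow_eq_one
  -- common realisations of two level cocycles
  have hex : ∀ z z' : cyc (lcComplex (Dloc q) (mu (chiLoc p q))) 2,
      ∃ (E : IntermediateField ℚ_[q] (PadicAlgCl q)) (_ : FiniteDimensional ℚ_[q] E)
        (_ : IsGalois ℚ_[q] E) (c c' : cocycles₂ (Rep.ofAlgebraAutOnUnits ℚ_[q] E)),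
        RealAt p ζ E z c ∧ RealAt p ζ E z' c' := by
    intro z z'
    obtain ⟨F, hF, hzF⟩ := lcVal_level p q z
    obtain ⟨F', hF', hzF'⟩ := lcVal_level p q z'
    obtain ⟨E, hE1, hE2, hζE, -, -, hEF⟩ :=
      exists_field hLvl ζ (F ⊔ F') ((Dloc q).sup hF hF') ⊥ ⊥
    obtain ⟨c, hc⟩ := exists_real hζ E hζE z fun g g' hg =>
      hzF g g' fun i => (Dloc q).sub_antitone le_sup_left (hEF (hg i))
    obtain ⟨c', hc'⟩ := exists_real hζ E hζE z' fun g g' hg =>
      hzF' g g' fun i => (Dloc q).sub_antitone le_sup_right (hEF (hg i))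
    exact ⟨E, hE1, hE2, c, c', hc, hc'⟩
  -- the value of the invariant
  have hval : ∀ x : Hlc (Dloc q) (mu (chiLoc p q)) 2, ∃ a : ZMod p,
      ∀ (L : IntermediateField ℚ_[q] (PadicAlgCl q)) [FiniteDimensional ℚ_[q] L]
        [IsGalois ℚ_[q] L] (z : cyc (lcComplex (Dloc q) (mu (chiLoc p q))) 2)
        (c : cocycles₂ (Rep.ofAlgebraAutOnUnits ℚ_[q] L)),
        (cls (lcComplex (Dloc q) (mu (chiLoc p q))) 2).hom z = x → RealAt p ζ L z c →
          qzOfZMod p a = H66.inv q L (H2π (Rep.ofAlgebraAutOnUnits ℚ_[q] L) c) := by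
    intro x
    obtain ⟨z₀, rfl⟩ := cls_surjective (lcComplex (Dloc q) (mu (chiLoc p q))) 2 x
    obtain ⟨E, hE1, hE2, c₀, -, hc₀, -⟩ := hex z₀ z₀
    obtain ⟨a, ha⟩ := exists_qzOfZMod_eq p
      (H66.inv q E (H2π (Rep.ofAlgebraAutOnUnits ℚ_[q] E) c₀))
      (by rw [← map_nsmul (H66.inv q E), hc₀.nsmul_H2π hζ, map_zero])
    refine ⟨a, fun L _ _ z c hz hc => ?_⟩
    rw [ha]
    obtain ⟨E', hE'1, hE'2, h1, h2, heq⟩ := exists_infl_eq hLvl hζ E L z₀ z c₀ c hz.symm hc₀ hc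
    rw [← hInfl ℚ_[q] E E' h1, ← hInfl ℚ_[q] L E' h2, heq]
  choose inv₀ hinv₀ using hval
  -- additivity
  have hadd : ∀ x y, inv₀ (x + y) = inv₀ x + inv₀ y := by
    intro x y
    obtain ⟨z, rfl⟩ := cls_surjective (lcComplex (Dloc q) (mu (chiLoc p q))) 2 x
    obtain ⟨z', rfl⟩ := cls_surjective (lcComplex (Dloc q) (mu (chiLoc p q))) 2 y
    obtain ⟨E, hE1, hE2, c, c', hc, hc'⟩ := hex z z'
    apply qzOfZMod_injective p
    have e1 := hinv₀ ((cls (lcComplex (Dloc q) (mu (chiLoc p q))) 2).hom z) E z c rfl hc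
    have e2 := hinv₀ ((cls (lcComplex (Dloc q) (mu (chiLoc p q))) 2).hom z') E z' c' rfl hc'
    have e3 := hinv₀ ((cls (lcComplex (Dloc q) (mu (chiLoc p q))) 2).hom z +
      (cls (lcComplex (Dloc q) (mu (chiLoc p q))) 2).hom z') E (z + z') (c + c')
      (map_add _ z z') (hc.add hζ hc')
    exact e3.trans ((inv_H2π_add E c c').trans ((congrArg₂ (· + ·) e1.symm e2.symm).trans
      (qzOfZMod_add p _ _).symm))
  refine ⟨AddMonoidHom.toZModLinearMap p (AddMonoidHom.mk' inv₀ hadd), ?_⟩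
  intro L _ _ ζL hζL x y hxy
  obtain ⟨z, c, hzx, hcy, hcorr⟩ := hxy
  show qzOfZMod p (inv₀ x) = H66.inv q L y
  rw [← hcy]
  exact hinv₀ x L z c hzx (real_of_corr L ζL hζL z c hcorr)

end Fermat.Agent.S55.H40
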