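/-
Program C (S55), package C4 (helper40): (LVL)(a) — every level subgroup of the local level datum
contains the absolute Galois group of a finite Galois extension of `ℚ_q`
(`L := ` the normal closure of `ℚ_q(ι t)`, `t` a finite generating set of the level).
-/
import Fermat.Agent.S55.H40.LocalInvCore

set_option autoImplicit false

open Fermat.Agent.S55.H49 Fermat.Agent.S55.H26

namespace Fermat.Agent.S55.H40

/-- **(LVL)(a)**: the first component of `H26.LocalFieldLevelsStatement q`. -/
theorem lvlHyp (q : ℕ) [Fact q.Prime] : LvlHyp q := by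
  intro F hF
  have hF' : FiniteDimensional ℚ F := hF
  have hfg : F.FG := IntermediateField.fg_of_fg_toSubalgebra F
    (Subalgebra.fg_of_fg_toSubmodule (Module.Finite.iff_fg.1 hF'))
  obtain ⟨t, ht, rfl⟩ := IntermediateField.fg_def.1 hfg
  have : Finite (padicEmbedding q '' t) := (ht.image _).to_subtype
  have hL₀ : FiniteDimensional ℚ_[q]
      (IntermediateField.adjoin ℚ_[q] (padicEmbedding q '' t)) :=
    IntermediateField.finiteDimensional_adjoin fun x _ => Algebra.IsIntegral.isIntegral x
  have hle := IntermediateField.le_normalClosure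
    (IntermediateField.adjoin ℚ_[q] (padicEmbedding q '' t))
  refine ⟨IntermediateField.normalClosure ℚ_[q]
    (IntermediateField.adjoin ℚ_[q] (padicEmbedding q '' t)) (PadicAlgCl q), inferInstance, ⟨⟩, ?_⟩
  intro g hg
  have hg' : ∀ y ∈ IntermediateField.adjoin ℚ_[q] (padicEmbedding q '' t), g y = y :=
    fun y hy => (IntermediateField.mem_fixingSubgroup_iff _ _).1 hg y (hle hy)
  show localGaloisToGlobal q g ∈ (IntermediateField.adjoin ℚ t).fixingSubgroup
  rw [IntermediateField.mem_fixingSubgroup_iff]
  intro x hx
  induction hx using IntermediateField.adjoin_induction with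
  | mem x hx =>
    have hinj : Function.Injective (padicEmbedding q) := (padicEmbedding q).toRingHom.injective
    refine hinj ?_
    rw [padicEmbedding_localGaloisToGlobal]
    exact hg' _ (IntermediateField.subset_adjoin _ _ ⟨x, hx, rfl⟩)
  | algebraMap x => exact AlgEquiv.commutes _ x
  | add x y _ _ hx hy => rw [map_add, hx, hy]
  | inv x _ hx => rw [map_inv₀, hx]
  | mul x y _ _ hx hy => rw [map_mul, hx, hy]

/-- (LVL)(a) in the shape of the first component of `H26.LocalFieldLevelsStatement q`. -/
theorem localFieldLevels_fst (q : ℕ) [Fact q.Prime] :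
    ∀ F : IntermediateField ℚ (AlgebraicClosure ℚ), (Dloc q).Lev F →
      ∃ L : IntermediateField ℚ_[q] (PadicAlgCl q), FiniteDimensional ℚ_[q] L ∧
        IsGalois ℚ_[q] L ∧ L.fixingSubgroup ≤ (Dloc q).sub F :=
  lvlHyp q

end Fermat.Agent.S55.H40
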