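/-
Program C (S55), package C4, leaf (LI1) (helper40): `H26.LocalInvExistsStatement p q`,
VERBATIM and UNCONDITIONAL — the local invariant on level-constant `H²(G_q, 𝔽_p(χ))` exists.
Inputs: C3's `H66.c3_invInfl` (inflation compatibility of `inv`) and (LVL)(a) (`lvlHyp`).
-/
import Fermat.Agent.S55.H40.LocalInv
import Fermat.Agent.S55.H40.LocalInvLvl
import Fermat.Agent.S55.H66.C3Main

set_option autoImplicit false

namespace Fermat.Agent.S55.H40

/-- **C4 leaf (LI1)**: existence of the local invariant. -/
theorem localInvExistsStatement (p : ℕ) [Fact p.Prime] (q : ℕ) [Fact q.Prime] :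
    H26.LocalInvExistsStatement p q :=
  localInvExists_of p q (H66.c3_invInfl q) (lvlHyp q)

end Fermat.Agent.S55.H40
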