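/-
Program C (S55), package C4 (helper40): THE TERMS.
* `zeta0 p`    : the chosen primitive `p`-th root of unity of `ℚ̄`;
* `zetaLoc p q`: its image in `Ω = PadicAlgCl q`;
* `invLc p q`  : THE local invariant on level-constant `H²(G_q, 𝔽_p(χ))`, i.e. a term with
                 `H26.IsLocalInv p q (zetaLoc p q) (invLc p q)` (existence = leaf (LI1));
* uniqueness of the local invariant and its value on any realisation.
-/
import Fermat.Agent.S55.H40.LocalInvFinal

set_option autoImplicit false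

open CategoryTheory groupCohomology
open Fermat.Agent.S55.H49 Fermat.Agent.S55.H26

noncomputable section

namespace Fermat.Agent.S55.H40

variable (p : ℕ) [Fact p.Prime]

theorem exists_zeta0 : ∃ ζ₀ : AlgebraicClosure ℚ, IsPrimitiveRoot ζ₀ p := by
  have : NeZero p := ⟨(Fact.out : p.Prime).ne_zero⟩
  have : NeZero (p : AlgebraicClosure ℚ) := ⟨by exact_mod_cast (Fact.out : p.Prime).ne_zero⟩
  exact HasEnoughRootsOfUnity.exists_primitiveRoot (AlgebraicClosure ℚ) p

/-- THE primitive `p`-th root of unity of `ℚ̄`. -/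
def zeta0 : AlgebraicClosure ℚ := Classical.choose (exists_zeta0 p)

theorem zeta0_spec : IsPrimitiveRoot (zeta0 p) p := Classical.choose_spec (exists_zeta0 p)

variable (q : ℕ) [Fact q.Prime]

/-- THE primitive `p`-th root of unity of `Ω = PadicAlgCl q`: the image of `zeta0 p`. -/
def zetaLoc : PadicAlgCl q := padicEmbedding q (zeta0 p)

theorem zetaLoc_spec : IsPrimitiveRoot (zetaLoc p q) p :=
  (zeta0_spec p).map_of_injective (padicEmbedding q).toRingHom.injective

/-- THE local invariant on level-constant `H²(G_q, 𝔽_p(χ))`. -/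
def invLc : Hlc (Dloc q) (mu (chiLoc p q)) 2 →ₗ[ZMod p] ZMod p :=
  Classical.choose (localInvExistsStatement p q (zetaLoc p q) (zetaLoc_spec p q))

theorem isLocalInv_invLc : IsLocalInv p q (zetaLoc p q) (invLc p q) :=
  Classical.choose_spec (localInvExistsStatement p q (zetaLoc p q) (zetaLoc_spec p q))

variable {p q}

/-- The value of a local invariant on the class of a level cocycle, computed from ANY
realisation (at a finite Galois level `L`, which need not contain `ζ`). -/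
theorem IsLocalInv_eq_of_realAt {ζ : PadicAlgCl q} (hζ : ζ ^ p = 1)
    {inv : Hlc (Dloc q) (mu (chiLoc p q)) 2 →ₗ[ZMod p] ZMod p} (hinv : IsLocalInv p q ζ inv)
    (L : IntermediateField ℚ_[q] (PadicAlgCl q)) [FiniteDimensional ℚ_[q] L] [IsGalois ℚ_[q] L]
    (z : cyc (lcComplex (Dloc q) (mu (chiLoc p q))) 2)
    (c : cocycles₂ (Rep.ofAlgebraAutOnUnits ℚ_[q] L)) (hc : RealAt p ζ L z c) :
    qzOfZMod p (inv ((cls (lcComplex (Dloc q) (mu (chiLoc p q))) 2).hom z)) =
      H66.inv q L (H2π (Rep.ofAlgebraAutOnUnits ℚ_[q] L) c) := by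
  have : NeZero p := ⟨(Fact.out : p.Prime).ne_zero⟩
  obtain ⟨E, hE1, hE2, hζE, hLE, -, -⟩ :=
    exists_field (lvlHyp q) ζ ⊥ (Dloc q).bot L L
  have hζ0 : (⟨ζ, hζE⟩ : E) ≠ 0 := by
    intro h
    have h' : ζ = 0 := congrArg Subtype.val h
    rw [h', zero_pow (NeZero.ne p)] at hζ
    exact zero_ne_one hζ
  have hcE := hc.infl hLE
  have hcorr : Corr p q E (Units.mk0 ⟨ζ, hζE⟩ hζ0)
      ((cls (lcComplex (Dloc q) (mu (chiLoc p q))) 2).hom z)
      (H2π (Rep.ofAlgebraAutOnUnits ℚ_[q] E)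
        (mapCocycles₂ (H66.resHom hLE) (H66.inflRep hLE) c)) := by
    refine ⟨z, _, rfl, rfl, fun g => ?_⟩
    apply uv_injective
    have e := hcE (g 0) (g 1)
    rw [H99.fin_two_eta] at e
    rw [e, uv_zetaPow]
    rfl
  have h1 := hinv E (Units.mk0 ⟨ζ, hζE⟩ hζ0) rfl _ _ hcorr
  have i1 : (H66.inflH2 hLE).hom (H2π (Rep.ofAlgebraAutOnUnits ℚ_[q] L) c) =
      H2π (Rep.ofAlgebraAutOnUnits ℚ_[q] E)
        (mapCocycles₂ (H66.resHom hLE) (H66.inflRep hLE) c) :=
    H2π_comp_map_apply (H66.resHom hLE) (H66.inflRep hLE) c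
  rw [h1, ← i1]
  exact H66.c3_invInfl q ℚ_[q] L E hLE _

/-- Every class of level-constant `H²(G_q, 𝔽_p(χ))` has a realisation at a finite Galois level
containing `ζ`. -/
theorem exists_realAt {ζ : PadicAlgCl q} (hζ : ζ ^ p = 1)
    (x : Hlc (Dloc q) (mu (chiLoc p q)) 2) :
    ∃ (z : cyc (lcComplex (Dloc q) (mu (chiLoc p q))) 2)
      (E : IntermediateField ℚ_[q] (PadicAlgCl q)) (_ : FiniteDimensional ℚ_[q] E)
      (_ : IsGalois ℚ_[q] E) (c : cocycles₂ (Rep.ofAlgebraAutOnUnits ℚ_[q] E)),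
      (cls (lcComplex (Dloc q) (mu (chiLoc p q))) 2).hom z = x ∧ ζ ∈ E ∧ RealAt p ζ E z c := by
  obtain ⟨z, rfl⟩ := cls_surjective (lcComplex (Dloc q) (mu (chiLoc p q))) 2 x
  obtain ⟨F, hF, hzF⟩ := lcVal_level p q z
  obtain ⟨E, hE1, hE2, hζE, -, -, hEF⟩ := exists_field (lvlHyp q) ζ F hF ⊥ ⊥
  obtain ⟨c, hc⟩ := exists_real hζ E hζE z fun g g' hg => hzF g g' fun i => hEF (hg i)
  exact ⟨z, E, hE1, hE2, c, rfl, hζE, hc⟩

/-- **Uniqueness of the local invariant.** -/
theorem IsLocalInv_unique {ζ : PadicAlgCl q} (hζ : ζ ^ p = 1)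
    {inv inv' : Hlc (Dloc q) (mu (chiLoc p q)) 2 →ₗ[ZMod p] ZMod p}
    (hinv : IsLocalInv p q ζ inv) (hinv' : IsLocalInv p q ζ inv') : inv = inv' := by
  refine LinearMap.ext fun x => ?_
  obtain ⟨z, E, hE1, hE2, c, rfl, -, hc⟩ := exists_realAt hζ x
  apply qzOfZMod_injective p
  rw [IsLocalInv_eq_of_realAt hζ hinv E z c hc, IsLocalInv_eq_of_realAt hζ hinv' E z c hc]

variable (p q)

/-- The value of THE local invariant on any realisation. -/
theorem invLc_eq_of_realAt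
    (L : IntermediateField ℚ_[q] (PadicAlgCl q)) [FiniteDimensional ℚ_[q] L] [IsGalois ℚ_[q] L]
    (z : cyc (lcComplex (Dloc q) (mu (chiLoc p q))) 2)
    (c : cocycles₂ (Rep.ofAlgebraAutOnUnits ℚ_[q] L)) (hc : RealAt p (zetaLoc p q) L z c) :
    qzOfZMod p (invLc p q ((cls (lcComplex (Dloc q) (mu (chiLoc p q))) 2).hom z)) =
      H66.inv q L (H2π (Rep.ofAlgebraAutOnUnits ℚ_[q] L) c) :=
  IsLocalInv_eq_of_realAt (zetaLoc_spec p q).pow_eq_one (isLocalInv_invLc p q) L z c hc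

/-- Any local invariant relative to `zetaLoc p q` is THE local invariant. -/
theorem eq_invLc {inv : Hlc (Dloc q) (mu (chiLoc p q)) 2 →ₗ[ZMod p] ZMod p}
    (hinv : IsLocalInv p q (zetaLoc p q) inv) : inv = invLc p q :=
  IsLocalInv_unique (zetaLoc_spec p q).pow_eq_one hinv (isLocalInv_invLc p q)

end Fermat.Agent.S55.H40
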