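/-
Program C (S55), package C4 (helper40): THE local invariant on the Prelude's `continuousH2`.
* `bridgeMu p q` : the C0 degree-2 bridge `continuousH2 ≃ Hlc` for `𝔽_p(χ)` at `q`;
* `invP p q`     : `invLc p q ∘ bridgeMu p q`, the invariant on
                   `continuousH2 (localGaloisToGlobal q) (𝔽_p(χ))`;
* `invFamily p S`: the family `q ↦ invP p q`, a term of `H62.LocalInv p S` / of the `inv`
                   argument of `H43.LocalInjP`, `H43.FormulaC` (definitional unfolding);
* its value on the class of a level cocycle, from any realisation; (L) on the Prelude side from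
  (L) for `invLc`.
-/
import Fermat.Agent.S55.H40.InvTerm
import Fermat.Agent.S55.H26.LocalInjPrelude
import Fermat.Agent.S55.H43.C0Leaves

set_option autoImplicit false

open CategoryTheory groupCohomology ExtCitation
open Fermat.Agent.S55.H49 Fermat.Agent.S55.H26

noncomputable section

namespace Fermat.Agent.S55.H40

variable (p : ℕ) [Fact p.Prime] (q : ℕ) [Fact q.Prime]

/-- `𝔽_p(χ)` is smooth for the local level datum. -/
theorem smooth_mu_chiLoc : (Dloc q).Smooth (mu (chiLoc p q)) := by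
  obtain ⟨L, hL, hN, hfix⟩ :=
    H43.exists_level_cycloChar (p := p) {pPrime p} (Finset.mem_singleton_self _)
  refine ⟨L, hL.1, hN, fun s hs m => ?_⟩
  have h1 : cycloChar p (localGaloisToGlobal q s) = 1 := (hfix _).1 hs
  have h2 : chiLoc p q s = 1 := h1
  rw [mu_ρ_apply, h2, Units.val_one, one_mul]

/-- The degree-2 bridge of C0 for `𝔽_p(χ)` at `q`. -/
def bridgeMu : continuousH2 (localGaloisToGlobal q) (mu (chiLoc p q)) ≃ₗ[ZMod p]
    Hlc (Dloc q) (mu (chiLoc p q)) 2 :=
  Classical.choose (H99.bridgeLocal2All (ZMod p) (GalQ q) (localGaloisToGlobal q)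
    (mu (chiLoc p q)) (smooth_mu_chiLoc p q))

theorem bridgeMu_exists (c : levelCocycles₂ (localGaloisToGlobal q) (mu (chiLoc p q))) :
    ∃ z : cyc (lcComplex (Dloc q) (mu (chiLoc p q))) 2,
      ∀ g : Fin 2 → GalQ q, lcVal z g = c.1 (g 0, g 1) :=
  (Classical.choose_spec (H99.bridgeLocal2All (ZMod p) (GalQ q) (localGaloisToGlobal q)
    (mu (chiLoc p q)) (smooth_mu_chiLoc p q))).1 c

theorem bridgeMu_π (c : levelCocycles₂ (localGaloisToGlobal q) (mu (chiLoc p q)))
    (z : cyc (lcComplex (Dloc q) (mu (chiLoc p q))) 2)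
    (h : ∀ g : Fin 2 → GalQ q, lcVal z g = c.1 (g 0, g 1)) :
    bridgeMu p q (continuousH2π (localGaloisToGlobal q) (mu (chiLoc p q)) c) =
      (cls (lcComplex (Dloc q) (mu (chiLoc p q))) 2).hom z :=
  (Classical.choose_spec (H99.bridgeLocal2All (ZMod p) (GalQ q) (localGaloisToGlobal q)
    (mu (chiLoc p q)) (smooth_mu_chiLoc p q))).2 c z h

/-- THE local invariant on the Prelude's `continuousH2` of `𝔽_p(χ)` at `q`. -/
def invP : continuousH2 (localGaloisToGlobal q) (mu (chiLoc p q)) →ₗ[ZMod p] ZMod p :=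
  invLc p q ∘ₗ (bridgeMu p q).toLinearMap

theorem invP_apply (y : continuousH2 (localGaloisToGlobal q) (mu (chiLoc p q))) :
    invP p q y = invLc p q (bridgeMu p q y) := rfl

theorem invP_π (c : levelCocycles₂ (localGaloisToGlobal q) (mu (chiLoc p q)))
    (z : cyc (lcComplex (Dloc q) (mu (chiLoc p q))) 2)
    (h : ∀ g : Fin 2 → GalQ q, lcVal z g = c.1 (g 0, g 1)) :
    invP p q (continuousH2π (localGaloisToGlobal q) (mu (chiLoc p q)) c) =
      invLc p q ((cls (lcComplex (Dloc q) (mu (chiLoc p q))) 2).hom z) := by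
  rw [invP_apply, bridgeMu_π p q c z h]

/-- **The value of `invP` on the class of a level cocycle `c`**, from any finite Galois level
`L` and unit-valued cocycle `c'` of `Gal(L/ℚ_q)` with `c' (σ|L, τ|L) = ζ ^ c (σ, τ)` in `Ω`
(`ζ = zetaLoc p q`). -/
theorem invP_eq_of_real (c : levelCocycles₂ (localGaloisToGlobal q) (mu (chiLoc p q)))
    (L : IntermediateField ℚ_[q] (PadicAlgCl q)) [FiniteDimensional ℚ_[q] L] [IsGalois ℚ_[q] L]
    (c' : cocycles₂ (Rep.ofAlgebraAutOnUnits ℚ_[q] L))
    (h : ∀ g g' : GalQ q,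
      uv (c'.1 (AlgEquiv.restrictNormalHom L g, AlgEquiv.restrictNormalHom L g')) =
        zetaLoc p q ^ (c.1 (g, g') : ZMod p).val) :
    qzOfZMod p (invP p q (continuousH2π (localGaloisToGlobal q) (mu (chiLoc p q)) c)) =
      H66.inv q L (H2π (Rep.ofAlgebraAutOnUnits ℚ_[q] L) c') := by
  obtain ⟨z, hz⟩ := bridgeMu_exists p q c
  rw [invP_π p q c z hz]
  refine invLc_eq_of_realAt p q L z c' fun g g' => ?_
  rw [h g g', hz ![g, g']]
  rfl

/-- (L) for `invP` on the Prelude's `continuousH2`, from (L) for `invLc`. -/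
theorem localInjPrelude_invP
    (hL : LocalInjStatement (Dloc q) (chiLoc p q) (invLc p q)) :
    LocalInjPreludeStatement (localGaloisToGlobal q) (chiLoc p q) (invP p q) :=
  localInjPrelude_of_bridge H99.bridgeLocal2All (localGaloisToGlobal q) (chiLoc p q)
    (invLc p q) hL (bridgeMu p q) (bridgeMu_π p q)

/-- The family of local invariants at the primes of `S`, on the Prelude's
`continuousH2 (primeLocalToGlobal q) (Res 𝔽_p(χ_cyc))` (a term of `H62.LocalInv p S`). -/
def invFamily (S : Finset Nat.Primes) (q : ↥S) :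
    continuousH2 (primeLocalToGlobal q.1)
      (Rep.res (primeLocalToGlobal q.1)
        ((Rep.trivial (ZMod p) GQ (ZMod p)).twist (cycloChar p))) →ₗ[ZMod p] ZMod p :=
  @invP p _ (q.1 : ℕ) ⟨q.1.2⟩

theorem invFamily_eq (S : Finset Nat.Primes) (q : ↥S) :
    invFamily p S q = @invP p _ (q.1 : ℕ) ⟨q.1.2⟩ := rfl

end Fermat.Agent.S55.H40
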