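/-
Program C (S55), package C4 (helper40): the concrete terms `invP p q`, `invFamily p S` of
`InvPrelude.lean` satisfy helper26's canonical predicates `H26.IsPreludeLocalInv`,
`H26.IsLocalInvFamily` (for the root of unity `zeta0 p`); hence `H43.LocalInjP S (invFamily p S)`
from the leaves CMP and ROOT.
-/
import Fermat.Agent.S55.H40.InvPrelude
import Fermat.Agent.S55.H26.LocalTop

set_option autoImplicit false

open ExtCitation

namespace Fermat.Agent.S55.H40

variable (p : ℕ) [Fact p.Prime]

theorem isPreludeLocalInv_invP (q : ℕ) [Fact q.Prime] :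
    H26.IsPreludeLocalInv p q (zetaLoc p q) (invP p q) :=
  ⟨invLc p q, isLocalInv_invLc p q, invP_π p q⟩

/-- The concrete family `invFamily p S` is a family of local invariants of Route R, attached to
the global root of unity `zeta0 p`. -/
theorem isLocalInvFamily_invFamily (S : Finset Nat.Primes) :
    H26.IsLocalInvFamily p S (zeta0 p) (invFamily p S) := fun q =>
  @isPreludeLocalInv_invP p _ (q.1 : ℕ) ⟨q.1.2⟩

/-- `H43.LocalInjP S (invFamily p S)` from the two remaining C4 leaves. -/
theorem localInjP_invFamily (S : Finset Nat.Primes)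
    (hCMP : ∀ (q : ℕ) [Fact q.Prime], H26.LocalInvCompStatement p q)
    (hROOT : ∀ (q : ℕ) [Fact q.Prime], H26.RootExtractStatement p q) :
    H43.LocalInjP S (invFamily p S) :=
  H26.localInjP_of_family p S hCMP hROOT (zeta0 p) (zeta0_spec p) (invFamily p S)
    (isLocalInvFamily_invFamily p S)

end Fermat.Agent.S55.H40
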